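import Fermat.Agent.MordellWeil.Chart
import Mathlib.RingTheory.Spectrum.Prime.Chevalley
import Mathlib.RingTheory.Jacobson.Ring

/-!
# Extension of points from the image of a dominant map
-/

set_option autoImplicit false
set_option linter.style.haveILetI false
set_option linter.unusedSectionVars false

noncomputable section

open PrimeSpectrum

namespace Fermat.Agent.MordellWeil

section Extend

variable {k R₀ B : Type*} [Field k] [IsAlgClosed k] [CommRing R₀] [IsDomain R₀] [Algebra k R₀]
  [Algebra.FiniteType k R₀] [CommRing B] [IsDomain B] [Algebra k B] [Algebra.FiniteType k B]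

/-- A dominant map of varieties has a dense open set in its image. -/
theorem exists_extend (f : R₀ →ₐ[k] B) (hf : Function.Injective f) :
    ∃ r : R₀, r ≠ 0 ∧ ∀ φ : R₀ →ₐ[k] k, φ r ≠ 0 → ∃ ψ : B →ₐ[k] k, ψ.comp f = φ := by
  classical
  haveI : IsNoetherianRing R₀ := Algebra.FiniteType.isNoetherianRing k R₀
  have hfin : f.toRingHom.FinitePresentation := by
    rw [← RingHom.FinitePresentation.of_finiteType]
    letI : Algebra R₀ B := f.toRingHom.toAlgebra
    haveI : IsScalarTower k R₀ B := IsScalarTower.of_algebraMap_eq fun x => (f.commutes x).symm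
    exact Algebra.FiniteType.of_restrictScalars_finiteType k R₀ B
  obtain ⟨S, hS⟩ := exists_constructibleSetData_iff.mpr (isConstructible_range_comap hfin)
  have hgen : (⟨⊥, Ideal.isPrime_bot⟩ : PrimeSpectrum R₀) ∈ S.toSet := by
    rw [hS]
    exact ⟨⟨⊥, Ideal.isPrime_bot⟩, PrimeSpectrum.ext ((RingHom.injective_iff_ker_eq_bot _).mp hf)⟩
  simp only [ConstructibleSetData.toSet, Set.mem_iUnion] at hgen
  obtain ⟨C, hC, hmem⟩ := hgen
  refine ⟨C.f, fun h0 => hmem.2 ?_, fun φ hφ => ?_⟩
  · rw [mem_zeroLocus, h0]; simp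
  have hker : (RingHom.ker φ).IsMaximal :=
    RingHom.ker_isMaximal_of_surjective φ fun a => ⟨algebraMap k R₀ a, φ.commutes a⟩
  have hin : (⟨RingHom.ker φ, hker.isPrime⟩ : PrimeSpectrum R₀) ∈ S.toSet := by
    simp only [ConstructibleSetData.toSet, Set.mem_iUnion]
    refine ⟨C, hC, ?_, fun h => hφ ?_⟩
    · rw [mem_zeroLocus]
      intro a ha
      have h1 := (mem_zeroLocus _ _).mp hmem.1 ha
      change a ∈ (⊥ : Ideal R₀) at h1
      rw [Ideal.mem_bot] at h1
      subst h1
      exact zero_mem _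
    · exact (mem_zeroLocus _ _).mp h (Set.mem_singleton _)
  rw [hS] at hin
  obtain ⟨Q, hQ⟩ := hin
  obtain ⟨m, hm, hQm⟩ := Q.asIdeal.exists_le_maximal Q.isPrime.ne_top
  have hcomap : m.comap f.toRingHom = RingHom.ker φ := by
    refine (hker.eq_of_le (Ideal.comap_ne_top _ hm.ne_top) ?_).symm
    have := congrArg PrimeSpectrum.asIdeal hQ
    rw [PrimeSpectrum.comap_asIdeal] at this
    change RingHom.ker φ ≤ _
    rw [show RingHom.ker φ = Q.asIdeal.comap f.toRingHom from this.symm]
    exact Ideal.comap_mono hQm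
  letI := Ideal.Quotient.field m
  haveI : Algebra.FiniteType k (B ⧸ m) :=
    Algebra.FiniteType.of_surjective (Ideal.Quotient.mkₐ k m) (Ideal.Quotient.mkₐ_surjective k m)
  haveI : Module.Finite k (B ⧸ m) := finite_of_finite_type_of_isJacobsonRing k (B ⧸ m)
  haveI : Algebra.IsAlgebraic k (B ⧸ m) := Algebra.IsAlgebraic.of_finite k _
  let e : k ≃ₐ[k] (B ⧸ m) := AlgEquiv.ofBijective (Algebra.ofId k (B ⧸ m))
    IsAlgClosed.algebraMap_bijective_of_isIntegral
  refine ⟨e.symm.toAlgHom.comp (Ideal.Quotient.mkₐ k m), AlgHom.ext fun a => ?_⟩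
  have h1 : a - algebraMap k R₀ (φ a) ∈ RingHom.ker φ := by simp [RingHom.mem_ker]
  rw [← hcomap, Ideal.mem_comap] at h1
  have h2 : Ideal.Quotient.mk m (f a) = algebraMap k (B ⧸ m) (φ a) := by
    have : Ideal.Quotient.mk m (f.toRingHom (a - algebraMap k R₀ (φ a))) = 0 :=
      Ideal.Quotient.eq_zero_iff_mem.mpr h1
    rw [map_sub, map_sub, sub_eq_zero] at this
    refine this.trans ?_
    change Ideal.Quotient.mk m (f (algebraMap k R₀ (φ a))) = _
    rw [f.commutes]
    rfl
  change e.symm (Ideal.Quotient.mk m (f a)) = φ a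
  rw [h2]
  exact e.symm.commutes _

end Extend

/-- A polynomial function with infinitely many values on an algebraic set takes all but finitely
many values. -/
theorem finite_compl_values {V : Type*} [Finite V] {Z : Set (V → Qb)} (hZ : IsAlgSet Z)
    (t : MvPolynomial V Qb) (h : (MvPolynomial.eval · t) '' Z |>.Infinite) :
    ((MvPolynomial.eval · t) '' Z)ᶜ.Finite := by
  classical
  obtain ⟨R, hR⟩ := hZ
  set I := MvPolynomial.vanishingIdeal Qb Z with hI
  let S : Submonoid (MvPolynomial V Qb) :=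
    (nonZeroDivisors (Polynomial Qb)).map (Polynomial.aeval t)
  have hdisj : Disjoint (I : Set (MvPolynomial V Qb)) S := by
    rw [Set.disjoint_left]
    rintro _ hmem ⟨g, hg, rfl⟩
    apply h
    refine (Polynomial.finite_setOfPred_isRoot (nonZeroDivisors.ne_zero hg)).subset ?_
    rintro _ ⟨z, hz, rfl⟩
    have := hmem z hz
    rw [← Polynomial.aeval_algHom_apply] at this
    simpa [MvPolynomial.aeval_eq_eval] using this
  obtain ⟨P, hP, hIP, hPS⟩ := Ideal.exists_le_prime_disjoint I S hdisj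
  haveI := hP
  let f : Polynomial Qb →ₐ[Qb] (MvPolynomial V Qb ⧸ P) :=
    (Ideal.Quotient.mkₐ Qb P).comp (Polynomial.aeval t)
  have hf : Function.Injective f := by
    rw [injective_iff_map_eq_zero]
    intro g hg
    by_contra hg0
    exact Set.disjoint_left.mp hPS (Ideal.Quotient.eq_zero_iff_mem.mp hg)
      ⟨g, mem_nonZeroDivisors_of_ne_zero hg0, rfl⟩
  haveI : Algebra.FiniteType Qb (MvPolynomial V Qb ⧸ P) :=
    Algebra.FiniteType.of_surjective (Ideal.Quotient.mkₐ Qb P) (Ideal.Quotient.mkₐ_surjective Qb P)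
  obtain ⟨r, hr, hext⟩ := exists_extend f hf
  refine (Polynomial.finite_setOfPred_isRoot hr).subset fun a ha => ?_
  by_contra hroot
  obtain ⟨ψ, hψ⟩ := hext (Polynomial.aeval a) (by simpa [Polynomial.coe_aeval_eq_eval] using hroot)
  apply ha
  refine ⟨fun v => ψ (Ideal.Quotient.mkₐ Qb P (MvPolynomial.X v)), ?_, ?_⟩
  · have hpt : ∀ p : MvPolynomial V Qb,
        MvPolynomial.eval (fun v => ψ (Ideal.Quotient.mkₐ Qb P (MvPolynomial.X v))) p =
          ψ (Ideal.Quotient.mkₐ Qb P p) := fun p =>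
      (congrFun (congrArg DFunLike.coe
        (MvPolynomial.aeval_unique (ψ.comp (Ideal.Quotient.mkₐ Qb P)))) p).symm
    rw [hR]
    intro q hq
    rw [hpt]
    have : q ∈ I := by
      rw [hI, MvPolynomial.mem_vanishingIdeal_iff]
      intro z hz
      rw [hR] at hz
      simpa [MvPolynomial.aeval_eq_eval] using hz q hq
    rw [show Ideal.Quotient.mkₐ Qb P q = 0 from Ideal.Quotient.eq_zero_iff_mem.mpr (hIP this),
      map_zero]
  · have h1 := congrFun (congrArg DFunLike.coe hψ) Polynomial.X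
    simp only [AlgHom.comp_apply, Polynomial.aeval_X, f] at h1
    refine Eq.trans ?_ h1
    exact (congrFun (congrArg DFunLike.coe
        (MvPolynomial.aeval_unique (ψ.comp (Ideal.Quotient.mkₐ Qb P)))) t).symm

end Fermat.Agent.MordellWeil
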