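import Fermat.Agent.MordellWeil.Unique
import Fermat.Agent.MordellWeil.TorsionFinite
import Mathlib.Combinatorics.Matroid.Rank.ENat
import Mathlib.RingTheory.AlgebraicIndependent.TranscendenceBasis

/-!
# The group of classes is divisible
-/

set_option autoImplicit false
set_option linter.style.haveILetI false
set_option linter.unusedSectionVars false

noncomputable section

open AlgebraicCurve Fermat.Agent.FF MvPolynomial

namespace Fermat.Agent.MordellWeil

theorem exists_hom_ne_zero {R : Type*} [CommRing R] [IsDomain R] [Algebra Qb R]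
    [Algebra.FiniteType Qb R] {a : R} (ha : a ≠ 0) : ∃ φ : R →ₐ[Qb] Qb, φ a ≠ 0 := by
  haveI : IsJacobsonRing R := isJacobsonRing_of_finiteType (A := Qb)
  have h : a ∉ (⊥ : Ideal R).jacobson := by
    rw [IsJacobsonRing.out' (⊥ : Ideal R) (Ideal.isPrime_bot.isRadical)]
    simpa using ha
  rw [Ideal.jacobson, Ideal.mem_sInf] at h
  push Not at h
  obtain ⟨m, ⟨-, hm⟩, ham⟩ := h
  letI := Ideal.Quotient.field m
  haveI : Algebra.FiniteType Qb (R ⧸ m) :=
    Algebra.FiniteType.of_surjective (Ideal.Quotient.mkₐ Qb m) (Ideal.Quotient.mkₐ_surjective Qb m)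
  haveI : Module.Finite Qb (R ⧸ m) := finite_of_finite_type_of_isJacobsonRing Qb (R ⧸ m)
  haveI : Algebra.IsAlgebraic Qb (R ⧸ m) := Algebra.IsAlgebraic.of_finite Qb _
  let e : Qb ≃ₐ[Qb] (R ⧸ m) := AlgEquiv.ofBijective (Algebra.ofId Qb (R ⧸ m))
    IsAlgClosed.algebraMap_bijective_of_isIntegral
  refine ⟨e.symm.toAlgHom.comp (Ideal.Quotient.mkₐ Qb m), fun h0 => ham ?_⟩
  rw [← Ideal.Quotient.eq_zero_iff_mem]
  exact e.symm.injective (h0.trans (map_zero _).symm)

variable {F : Type*} [Field F] [Algebra Qb F] [IsFunctionField Qb F]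

theorem exists_sumP_eq (X : Coords F) : ∀ (n : ℕ) (D : Divisor Qb F), 0 ≤ D →
    Divisor.degree D = n → ∃ P : Fin n → Place Qb F, X.sumP P = D ∧ ∀ r, 1 ≤ D (P r) := by
  classical
  intro n
  induction n with
  | zero =>
    intro D hD hd
    refine ⟨Fin.elim0, ?_, fun r => r.elim0⟩
    rw [Coords.sumP, Finset.univ_eq_empty, Finset.sum_empty]
    exact (eq_of_le_of_degree hD (by rw [map_zero, hd]; rfl))
  | succ n ih =>
    intro D hD hd
    obtain ⟨Q, hQ⟩ : ∃ Q, 1 ≤ D Q := by
      by_contra hno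
      push Not at hno
      have : D = 0 := Finsupp.ext fun v => le_antisymm
        (by have := hno v; simp only [Finsupp.zero_apply]; omega) (Finsupp.le_def.mp hD v)
      rw [this, map_zero] at hd
      push_cast at hd
      omega
    have h0 : 0 ≤ D - Finsupp.single Q 1 := Finsupp.le_def.mpr fun v => by
      have := Finsupp.le_def.mp hD v
      simp only [Finsupp.zero_apply] at this
      rw [Finsupp.sub_apply, Finsupp.zero_apply, Finsupp.single_apply]
      split_ifs with h
      · subst h; omega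
      · omega
    obtain ⟨P, hP, hP1⟩ := ih _ h0 (by rw [map_sub, hd, degree_single']; push_cast; ring)
    refine ⟨Fin.cons Q P, ?_, fun r => ?_⟩
    · rw [Coords.sumP] at hP
      rw [Coords.sumP, Fin.sum_univ_succ]
      simp only [Fin.cons_zero, Fin.cons_succ]
      rw [hP]; abel
    · refine Fin.cases hQ (fun i => ?_) r
      rw [Fin.cons_succ]
      refine le_trans (hP1 i) ?_
      rw [Finsupp.sub_apply, Finsupp.single_apply]
      split_ifs <;> omega

namespace Coords

variable (X : Coords F)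

theorem cls_single_pt (k : ℕ) : X.cls k (Finsupp.single X.pt (k : ℤ)) = 0 := by
  rw [X.cls_eq_zero_iff (by rw [degree_single'])]
  exact ⟨1, one_ne_zero, by simp [zdiv]⟩

theorem exists_cls_avoid (y : Pic0 Qb F) (S : Finset (Place Qb F)) {n : ℕ}
    (hn : bnd Qb F + 1 ≤ n) :
    ∃ D : Divisor Qb F, 0 ≤ D ∧ Divisor.degree D = n ∧ X.cls n D = y ∧ ∀ v ∈ S, D v = 0 := by
  have hg := genus_le_bnd (K := Qb) (F := F)
  obtain ⟨E, hE, hEn, rfl⟩ := X.exists_cls y (n := n) (by omega)
  obtain ⟨f, hf, hf0, hfS⟩ := exists_exact_finset (D := E) (by rw [hEn]; omega) S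
  have hnn : 0 ≤ E + div Qb f := Finsupp.le_def.mpr fun v => by
    have := neg_le_ord hf hf0 v
    simp only [Finsupp.zero_apply, Finsupp.add_apply, div_apply]; omega
  have hdeg : Divisor.degree (E + div Qb f) = n := by rw [map_add, hEn, degree_div, add_zero]
  refine ⟨_, hnn, hdeg, ?_, fun v hv => by
    rw [Finsupp.add_apply, div_apply, hfS v hv, add_neg_cancel]⟩
  rw [X.cls_eq hdeg, X.cls_eq hEn, Pic0.mk, Pic0.mk, QuotientAddGroup.eq,
    AddSubgroup.mem_addSubgroupOf, Divisor.mem_principal]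
  refine ⟨f⁻¹, inv_ne_zero hf0, fun v => ?_⟩
  simp only [AddSubgroup.coe_add, AddSubgroup.coe_neg, Finsupp.add_apply, Finsupp.sub_apply,
    Finsupp.neg_apply, div_apply, Place.ord_inv]
  ring

/-- The chosen detecting sections. -/
def detect : Fin (genusFF Qb F) → F := X.exists_detector.choose

/-- The detecting determinant, as a function of the coordinates. -/
def detVal (a : X.PV (genusFF Qb F) → Qb) : Qb :=
  (Matrix.of fun j i => ∑ t, a (j, t) * X.co (ml F) (X.detect i) t :
    Matrix (Fin (genusFF Qb F)) (Fin (genusFF Qb F)) Qb).det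

theorem isPoly_detVal : IsPoly X.detVal :=
  IsPoly.det fun _ _ => by
    simp only [Matrix.of_apply]
    exact IsPoly.sum _ fun _ _ => (IsPoly.coord _).mul (IsPoly.const _)

theorem detVal_νT (P : Fin (genusFF Qb F) → Place Qb F) :
    X.detVal (X.νT P) = (Matrix.of fun j i => X.evv (P j) (ml F) (X.detect i) :
      Matrix (Fin (genusFF Qb F)) (Fin (genusFF Qb F)) Qb).det := by
  refine congrArg Matrix.det (Matrix.ext fun j i => ?_)
  simp only [Matrix.of_apply]
  rw [X.evv_eq_sum (m := ml F) (f := X.detect i) _ (X.exists_detector.choose_spec.1 i)]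
  rfl

theorem exists_detVal_ne_zero : ∃ P : Fin (genusFF Qb F) → Place Qb F,
    (∀ i, P i ≠ X.pt) ∧ X.detVal (X.νT P) ≠ 0 := by
  classical
  obtain ⟨hw, hind, -⟩ := X.exists_detector.choose_spec
  set g := genusFF Qb F
  set w := X.exists_detector.choose with hwdef
  set S := Submodule.span Qb (Set.range w) with hS
  obtain ⟨P, hP, h⟩ := X.exists_dual_points (ι := Unit) (fun _ => ml F) (fun _ => S) g
    (fun _ => Submodule.span_le.mpr (Set.range_subset_iff.mpr hw))
    (fun _ => Coords.finrank_span_eq hind) g le_rfl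
  refine ⟨P, hP, ?_⟩
  rw [X.detVal_νT]
  obtain ⟨v, hv, hvP⟩ := h ()
  choose c hc using fun i => (Submodule.mem_span_range_iff_exists_fun Qb).mp (hv i)
  set M : Matrix (Fin g) (Fin g) Qb := Matrix.of fun j i => X.evv (P j) (ml F) (X.detect i)
  intro h0
  have hmul : M * (Matrix.of fun l i => c i l) = 1 := by
    ext j i
    rw [Matrix.mul_apply, Matrix.one_apply, ← hvP j i, ← hc i,
      X.evv_eq_sum _ (sum_mem fun l _ => Submodule.smul_mem _ _ (hw l)),
      X.co_sum _ fun l _ => Submodule.smul_mem _ _ (hw l)]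
    simp only [M, Matrix.of_apply, detect, ← hwdef, X.evv_eq_sum _ (hw _), Finset.sum_apply,
      X.co_smul _ (hw _), Pi.smul_apply, smul_eq_mul, Finset.mul_sum, Finset.sum_mul]
    rw [Finset.sum_comm]
    exact Finset.sum_congr rfl fun _ _ => Finset.sum_congr rfl fun _ _ => by ring
  have := congrArg Matrix.det hmul
  rw [Matrix.det_mul, h0, zero_mul, Matrix.det_one] at this
  exact zero_ne_one this

theorem eq_sumP_of_cls {P : Fin (genusFF Qb F) → Place Qb F} (h : X.detVal (X.νT P) ≠ 0)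
    {E : Divisor Qb F} (hE : 0 ≤ E) (hdeg : Divisor.degree E = genusFF Qb F)
    (hcls : X.cls (genusFF Qb F) E = X.cls (genusFF Qb F) (X.sumP P)) : E = X.sumP P :=
  X.exists_detector.choose_spec.2.2 P (by rwa [X.detVal_νT] at h) E hE hdeg hcls

theorem finite_tuples_of_cls (T : Set (Pic0 Qb F)) (hT : T.Finite) :
    {P : Fin (genusFF Qb F) → Place Qb F | X.detVal (X.νT P) ≠ 0 ∧
      X.cls (genusFF Qb F) (X.sumP P) ∈ T}.Finite := by
  classical
  refine (hT.biUnion (t := fun y => {P : Fin (genusFF Qb F) → Place Qb F |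
    X.detVal (X.νT P) ≠ 0 ∧ X.cls (genusFF Qb F) (X.sumP P) = y}) fun y _ => ?_).subset
    fun P hP => Set.mem_biUnion hP.2 ⟨hP.1, rfl⟩
  by_cases hex : ∃ P : Fin (genusFF Qb F) → Place Qb F,
      X.detVal (X.νT P) ≠ 0 ∧ X.cls (genusFF Qb F) (X.sumP P) = y
  · obtain ⟨P₀, hP₀, hy⟩ := hex
    refine (Set.Finite.pi' fun _ : Fin (genusFF Qb F) => (X.sumP P₀).support.finite_toSet).subset
      fun P hP i => ?_
    have he := X.eq_sumP_of_cls hP₀ (X.sumP_nonneg P) (X.degree_sumP P) (hP.2.trans hy.symm)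
    rw [Finset.mem_coe, Finsupp.mem_support_iff, ← he]
    have hle : Finsupp.single (P i) (1 : ℤ) ≤ X.sumP P :=
      Finset.single_le_sum (f := fun r => Finsupp.single (P r) (1 : ℤ))
        (fun r _ => single_nonneg _) (Finset.mem_univ i)
    have := Finsupp.le_def.mp hle (P i)
    rw [Finsupp.single_eq_same] at this
    omega
  · exact Set.finite_empty.subset fun P hP => hex ⟨P, hP⟩

/-! ### The multiplication relation -/

variable (F) in
/-- The degree of the auxiliary divisors. -/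
abbrev ec : ℕ := bnd Qb F + 1

/-- Variables of the relation. -/
abbrev GVar (m j : ℕ) : Type :=
  X.PV (genusFF Qb F) ⊕ X.PV j ⊕ X.PV (ec F) ⊕
    X.WV (m * genusFF Qb F + ec F) ⊕ X.WV (j + ec F) ⊕ Unit

variable (m j : ℕ)

/-- The first point block. -/
abbrev gP : X.PV (genusFF Qb F) → X.GVar m j := Sum.inl
/-- The second point block. -/
abbrev gQ : X.PV j → X.GVar m j := fun a => .inr (.inl a)
/-- The auxiliary point block. -/
abbrev gC : X.PV (ec F) → X.GVar m j := fun a => .inr (.inr (.inl a))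

/-- First list. -/
abbrev list₁ : Fin (m * genusFF Qb F + ec F) → X.CIx → X.GVar m j :=
  Fin.append (fun r i => X.gP m j ((finProdFinEquiv.symm r).2, i)) (fun r i => X.gC m j (r, i))
/-- Second list. -/
abbrev list₂ : Fin (j + ec F) → X.CIx → X.GVar m j :=
  Fin.append (fun r i => X.gQ m j (r, i)) (fun r i => X.gC m j (r, i))
/-- Witnesses of the first list. -/
abbrev wit₁ : X.WV (m * genusFF Qb F + ec F) → X.GVar m j :=
  fun a => .inr (.inr (.inr (.inl a)))
/-- Witnesses of the second list. -/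
abbrev wit₂ : X.WV (j + ec F) → X.GVar m j := fun a => .inr (.inr (.inr (.inr (.inl a))))

/-- The relation `m [P] = [Q]`, with `P` in general position. -/
def Gam : Set (X.GVar m j → Qb) :=
  {z | z ∘ X.gP m j ∈ X.Cpow (genusFF Qb F) ∧ z ∘ X.gQ m j ∈ X.Cpow j ∧ z ∘ X.gC m j ∈ X.Cpow (ec F) ∧
    X.PrinCond (X.list₁ m j) (X.wit₁ m j) z ∧ X.PrinCond (X.list₂ m j) (X.wit₂ m j) z ∧
    X.detVal (z ∘ X.gP m j) * z (.inr (.inr (.inr (.inr (.inr ()))))) = 1}

theorem sumP_rep {n : ℕ} (P : Fin n → Place Qb F) :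
    X.sumP (fun r : Fin (m * n) => P (finProdFinEquiv.symm r).2) = m • X.sumP P := by
  simp only [sumP]
  rw [Equiv.sum_comp finProdFinEquiv.symm fun x : Fin m × Fin n => Finsupp.single (P x.2) (1 : ℤ),
    Fintype.sum_prod_type]
  dsimp only
  rw [Finset.sum_const, Finset.card_univ, Fintype.card_fin]

theorem cls_rep {n : ℕ} (P : Fin n → Place Qb F) :
    X.cls (m * n) (X.sumP fun r : Fin (m * n) => P (finProdFinEquiv.symm r).2) =
      m • X.cls n (X.sumP P) := by
  rw [X.sumP_rep, X.cls_nsmul (X.degree_sumP P)]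

theorem isAlgSet_Gam : IsAlgSet (X.Gam m j) :=
  IsAlgSet.and (X.isAlgSet_Cpow_comp _) (IsAlgSet.and (X.isAlgSet_Cpow_comp _)
    (IsAlgSet.and (X.isAlgSet_Cpow_comp _) (IsAlgSet.and (X.isAlgSet_prinCond _ _)
      (IsAlgSet.and (X.isAlgSet_prinCond _ _)
        (IsAlgSet.of_eq ((X.isPoly_detVal.comp_coord _).mul (IsPoly.coord _)) (IsPoly.const 1))))))

theorem Gam_sound {z : X.GVar m j → Qb} (hz : z ∈ X.Gam m j) :
    ∃ (P : Fin (genusFF Qb F) → Place Qb F) (Q : Fin j → Place Qb F),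
      (∀ i, P i ≠ X.pt) ∧ (∀ i, Q i ≠ X.pt) ∧ X.νT P = z ∘ X.gP m j ∧ X.νT Q = z ∘ X.gQ m j ∧
      X.detVal (X.νT P) ≠ 0 ∧
      X.cls j (X.sumP Q) = m • X.cls (genusFF Qb F) (X.sumP P) := by
  obtain ⟨hP, hQ, hC, h₁, h₂, hdet⟩ := hz
  obtain ⟨P, hPne, hPe⟩ := X.exists_of_mem_Cpow hP
  obtain ⟨Q, hQne, hQe⟩ := X.exists_of_mem_Cpow hQ
  obtain ⟨C, hCne, hCe⟩ := X.exists_of_mem_Cpow hC
  have eP : ∀ r i, z (X.gP m j (r, i)) = X.ν (P r) i := fun r i => (congrFun hPe (r, i)).symm
  have eQ : ∀ r i, z (X.gQ m j (r, i)) = X.ν (Q r) i := fun r i => (congrFun hQe (r, i)).symm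
  have eC : ∀ r i, z (X.gC m j (r, i)) = X.ν (C r) i := fun r i => (congrFun hCe (r, i)).symm
  have a₁ := X.cls_eq_zero_of_prinCond h₁
    (P := Fin.append (fun r : Fin (m * genusFF Qb F) => P (finProdFinEquiv.symm r).2) C) (fun r i => by
    simp only [list₁]
    induction r using Fin.addCases with
    | left r => simp only [Fin.append_left]; exact eP _ i
    | right r => simp only [Fin.append_right]; exact eC r i)
  have a₂ := X.cls_eq_zero_of_prinCond h₂ (P := Fin.append Q C) (fun r i => by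
    simp only [list₂]
    induction r using Fin.addCases with
    | left r => simp only [Fin.append_left]; exact eQ r i
    | right r => simp only [Fin.append_right]; exact eC r i)
  rw [X.sumP_append, X.cls_add (X.degree_sumP _) (X.degree_sumP C), X.cls_rep] at a₁
  rw [X.sumP_append, X.cls_add (X.degree_sumP Q) (X.degree_sumP C)] at a₂
  refine ⟨P, Q, hPne, hQne, hPe, hQe, ?_, ?_⟩
  · rw [hPe]; exact left_ne_zero_of_mul_eq_one hdet
  · exact add_right_cancel (a₂.trans a₁.symm)

theorem exists_Gam {P : Fin (genusFF Qb F) → Place Qb F} (hP : ∀ i, P i ≠ X.pt)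
    (hdet : X.detVal (X.νT P) ≠ 0) :
    ∃ j, j ≤ genusFF Qb F ∧ ∃ z ∈ X.Gam m j, z ∘ X.gP m j = X.νT P := by
  classical
  set y := m • X.cls (genusFF Qb F) (X.sumP P) with hy
  obtain ⟨D, hD, hDg, hDy⟩ := X.exists_cls y (n := (genusFF Qb F)) le_rfl
  have hpt := Finsupp.le_def.mp hD X.pt
  simp only [Finsupp.zero_apply] at hpt
  obtain ⟨k, hk⟩ : ∃ k : ℕ, D X.pt = k := ⟨_, (Int.toNat_of_nonneg hpt).symm⟩
  set D' := D - Finsupp.single X.pt (k : ℤ) with hD'
  have hD'0 : 0 ≤ D' := Finsupp.le_def.mpr fun v => by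
    have := Finsupp.le_def.mp hD v
    simp only [Finsupp.zero_apply] at this
    rw [hD', Finsupp.sub_apply, Finsupp.zero_apply, Finsupp.single_apply]
    split_ifs with h
    · subst h; omega
    · omega
  have hdd := FF.degree_mono hD'0
  rw [map_zero, hD', map_sub, hDg, degree_single'] at hdd
  obtain ⟨j, hj⟩ : ∃ j, (genusFF Qb F) = j + k := ⟨(genusFF Qb F) - k, by omega⟩
  have hdeg' : Divisor.degree D' = j := by rw [hD', map_sub, hDg, degree_single', hj]; push_cast; ring
  obtain ⟨Q, hQ, hQ1⟩ := exists_sumP_eq X j D' hD'0 hdeg'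
  have hQne : ∀ r, Q r ≠ X.pt := fun r h => by
    have := hQ1 r
    rw [h, hD', Finsupp.sub_apply, Finsupp.single_eq_same, hk] at this
    omega
  have hclsQ : X.cls j (X.sumP Q) = y := by
    rw [hQ, ← hDy]
    have h := X.cls_add hdeg' (show Divisor.degree (Finsupp.single X.pt (k : ℤ) : Divisor Qb F) =
      (k : ℤ) by rw [degree_single'])
    rw [X.cls_single_pt, add_zero, hD', sub_add_cancel, ← hj] at h
    exact h.symm
  obtain ⟨E, hE, hEn, hEy, hEpt⟩ := X.exists_cls_avoid (-y) {X.pt} (n := ec F) le_rfl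
  obtain ⟨C, hC, hC1⟩ := exists_sumP_eq X _ E hE hEn
  have hCne : ∀ r, C r ≠ X.pt := fun r h => by
    have := hC1 r
    rw [h, hEpt _ (Finset.mem_singleton_self _)] at this
    omega
  have c₁ : X.cls (m * genusFF Qb F + ec F)
      (X.sumP (Fin.append (fun r : Fin (m * genusFF Qb F) => P (finProdFinEquiv.symm r).2) C)) = 0 := by
    rw [X.sumP_append, X.cls_add (X.degree_sumP _) (X.degree_sumP C), X.cls_rep, ← hy, hC, hEy,
      add_neg_cancel]
  have c₂ : X.cls (j + ec F) (X.sumP (Fin.append Q C)) = 0 := by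
    rw [X.sumP_append, X.cls_add (X.degree_sumP Q) (X.degree_sumP C), hclsQ, hC, hEy,
      add_neg_cancel]
  obtain ⟨w₁, hw₁, hd₁⟩ := X.exists_witness c₁
  obtain ⟨w₂, hw₂, hd₂⟩ := X.exists_witness c₂
  let z : X.GVar m j → Qb := Sum.elim (X.νT P) (Sum.elim (X.νT Q) (Sum.elim (X.νT C)
    (Sum.elim w₁ (Sum.elim w₂ fun _ => (X.detVal (X.νT P))⁻¹))))
  refine ⟨j, by omega, z, ?_, rfl⟩
  have e1 : z ∘ X.gP m j = X.νT P := rfl
  refine ⟨?_, X.νT_mem hQne, X.νT_mem hCne, ⟨hw₁, fun t => ?_⟩, ⟨hw₂, fun t => ?_⟩, ?_⟩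
  · rw [e1]; exact X.νT_mem hP
  · have e : (fun r i => z (X.list₁ m j r i)) =
        fun r => X.ν (Fin.append (fun r : Fin (m * genusFF Qb F) => P (finProdFinEquiv.symm r).2) C r) := by
      funext r i
      simp only [list₁]
      induction r using Fin.addCases with
      | left r => simp only [Fin.append_left]; rfl
      | right r => simp only [Fin.append_right]; rfl
    rw [e]; exact hd₁ t
  · have e : (fun r i => z (X.list₂ m j r i)) = fun r => X.ν (Fin.append Q C r) := by
      funext r i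
      simp only [list₂]
      induction r using Fin.addCases with
      | left r => simp only [Fin.append_left]; rfl
      | right r => simp only [Fin.append_right]; rfl
    rw [e]; exact hd₂ t
  · rw [e1]; exact mul_inv_cancel₀ hdet

theorem exists_component : ∃ j, j ≤ genusFF Qb F ∧ ∀ p : MvPolynomial (X.PV (genusFF Qb F)) Qb,
    rename (X.gP m j) p ∈ vanishingIdeal Qb (X.Gam m j) → p ∈ X.Cideal (genusFF Qb F) := by
  classical
  set g := genusFF Qb F
  by_contra hno
  push Not at hno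
  choose p hp hpI using fun i : Fin (g + 1) => hno i (Nat.lt_succ_iff.mp i.2)
  have hdetI : X.isPoly_detVal.poly ∉ X.Cideal g := by
    obtain ⟨P, hP, hd⟩ := X.exists_detVal_ne_zero
    intro h
    have := X.mem_Cideal.mp h _ (X.νT_mem hP)
    rw [IsPoly.eval_poly] at this
    exact hd this
  have hprod : X.isPoly_detVal.poly * ∏ i, p i ∉ X.Cideal g := fun h =>
    ((X.Cideal_isPrime g).mem_or_mem h).elim hdetI fun h' => by
      obtain ⟨i, -, hi⟩ := (X.Cideal_isPrime g).prod_mem_iff.mp h'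
      exact hpI i hi
  rw [X.mem_Cideal] at hprod
  push Not at hprod
  obtain ⟨a, ha, hne⟩ := hprod
  obtain ⟨P, hP, rfl⟩ := X.exists_of_mem_Cpow ha
  rw [map_mul, IsPoly.eval_poly] at hne
  obtain ⟨j, hj, z, hz, hzP⟩ := X.exists_Gam m hP (left_ne_zero_of_mul hne)
  have h0 := mem_vanishingIdeal_iff.mp (hp ⟨j, Nat.lt_succ_iff.mpr hj⟩) z hz
  rw [aeval_eq_eval, eval_rename, hzP] at h0
  have h1 := right_ne_zero_of_mul hne
  rw [map_prod, Finset.prod_ne_zero_iff] at h1
  exact h1 _ (Finset.mem_univ _) h0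

/-- Dominance of the doubling relation. -/
theorem halved_open_of_component {m j : ℕ} (hm : 0 < m) (hj : j ≤ genusFF Qb F) {B : Type} [CommRing B]
    [IsDomain B] [Algebra Qb B] [Algebra.FiniteType Qb B]
    (α : X.CRing (genusFF Qb F) →ₐ[Qb] B) (β : X.CRing j →ₐ[Qb] B) (hα : Function.Injective α)
    (hpt : ∀ ψ : B →ₐ[Qb] Qb, ∃ (P : Fin (genusFF Qb F) → Place Qb F) (Q : Fin j → Place Qb F),
      (∀ i, Q i ≠ X.pt) ∧ X.detVal (X.νT P) ≠ 0 ∧
      X.cls j (X.sumP Q) = m • X.cls (genusFF Qb F) (X.sumP P) ∧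
      (∀ v, ψ (α (X.Cq _ (MvPolynomial.X v))) = X.νT P v) ∧
      ∀ v, ψ (β (X.Cq _ (MvPolynomial.X v))) = X.νT Q v) :
    ∃ r : MvPolynomial (X.PV (genusFF Qb F)) Qb,
    r ∉ X.Cideal (genusFF Qb F) ∧ ∀ Q : Fin (genusFF Qb F) → Place Qb F, (∀ i, Q i ≠ X.pt) →
      eval (X.νT Q) r ≠ 0 → ∃ y : Pic0 Qb F, m • y = X.cls (genusFF Qb F) (X.sumP Q) := by
  classical
  let x : Fin (genusFF Qb F) → B := fun i => α (X.Cq (genusFF Qb F) (MvPolynomial.X (i, X.i₀)))
  have hx : AlgebraicIndependent Qb x := (X.algebraicIndependent_i₀ (genusFF Qb F)).map' hα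
  let s₀ : Fin j → B := fun i => β (X.Cq j (MvPolynomial.X (i, X.i₀)))
  let S : Set B := Set.range s₀
  -- the coordinates of `Q` are algebraic over `S`
  have hQalg : ∀ b ∈ β.range, IsAlgebraic (Algebra.adjoin Qb S) b := by
    rintro _ ⟨c, rfl⟩
    set A := Algebra.adjoin Qb (Set.range fun i : Fin j => X.Cq j (MvPolynomial.X (i, X.i₀)))
    have hmem : ∀ a : A, β (a : X.CRing j) ∈ Algebra.adjoin Qb S := fun a => by
      have : A.map β = Algebra.adjoin Qb S := by
        rw [AlgHom.map_adjoin]; congr 1; rw [← Set.range_comp]; rfl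
      rw [← this]
      exact ⟨a, a.2, rfl⟩
    let φ : A →+* Algebra.adjoin Qb S :=
      ((β.comp A.val).codRestrict (Algebra.adjoin Qb S) hmem).toRingHom
    haveI : Nontrivial (Algebra.adjoin Qb S) := ⟨⟨0, 1, fun h => zero_ne_one (congrArg Subtype.val h)⟩⟩
    exact (IsIntegral.map_of_comp_eq φ β.toRingHom (by ext; rfl)
      (X.isIntegral_CRing j c)).isAlgebraic
  -- the coordinates of `P` are algebraic over those of `Q`
  have hPalg : ∀ i, IsAlgebraic β.range (x i) := by
    intro i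
    by_contra ht
    let RQ : Subalgebra Qb B := β.range
    let f : Polynomial RQ →ₐ[Qb] B :=
      (Polynomial.aeval (x i) : Polynomial RQ →ₐ[RQ] B).restrictScalars Qb
    have hf : Function.Injective f := transcendental_iff_injective.mp ht
    haveI : Algebra.FiniteType Qb RQ := Algebra.FiniteType.of_surjective β.rangeRestrict
      β.rangeRestrict_surjective
    haveI : Algebra.FiniteType Qb (Polynomial RQ) := Algebra.FiniteType.trans (S := RQ)
      inferInstance inferInstance
    obtain ⟨r, hr, hext⟩ := exists_extend f hf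
    obtain ⟨φ, hφ⟩ := exists_hom_ne_zero (Polynomial.leadingCoeff_ne_zero.mpr hr)
    set rc : Polynomial Qb := r.map φ.toRingHom
    have hrc : rc ≠ 0 := fun h => hφ (by
      have := congrArg (fun q : Polynomial Qb => q.coeff r.natDegree) h
      simpa [rc] using this)
    set good : Set Qb := {c | rc.eval c ≠ 0}
    have hgood : good.Infinite := by
      have : good = {c | rc.IsRoot c}ᶜ := rfl
      rw [this]
      exact (Polynomial.finite_setOfPred_isRoot hrc).infinite_compl
    have hψ : ∀ c ∈ good, ∃ ψ : B →ₐ[Qb] Qb, ψ (x i) = c ∧ ∀ b : RQ, ψ (b : B) = φ b := by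
      intro c hc
      let Φ : Polynomial RQ →ₐ[Qb] Qb :=
        { Polynomial.eval₂RingHom φ.toRingHom c with
          commutes' := fun q => by
            change Polynomial.eval₂ φ.toRingHom c (Polynomial.C (algebraMap Qb RQ q)) = _
            rw [Polynomial.eval₂_C]
            exact φ.commutes q }
      obtain ⟨ψ, hψ⟩ := hext Φ (by
        change Polynomial.eval₂ φ.toRingHom c r ≠ 0
        rw [← Polynomial.eval_map]
        exact hc)
      refine ⟨ψ, ?_, fun b => ?_⟩
      · have := congrFun (congrArg DFunLike.coe hψ) Polynomial.X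
        simpa [f, Φ] using this
      · have := congrFun (congrArg DFunLike.coe hψ) (Polynomial.C b)
        simpa [f, Φ] using this
    obtain ⟨c₀, hc₀⟩ := hgood.nonempty
    haveI : Nonempty (B →ₐ[Qb] Qb) := ⟨(hψ c₀ hc₀).choose⟩
    choose! ψ hψx hψb using hψ
    choose P Q hQ hdet hcls hPv hQv using hpt
    have hQQ : ∀ c ∈ good, Q (ψ c) = Q (ψ c₀) := fun c hc => funext fun r =>
      X.ν_injective (hQ _ r) (hQ _ r) (funext fun t => by
        have e1 := hQv (ψ c) (r, t)
        have e2 := hQv (ψ c₀) (r, t)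
        have h1 := hψb c hc ⟨β (X.Cq j (MvPolynomial.X (r, t))), ⟨_, rfl⟩⟩
        have h2 := hψb c₀ hc₀ ⟨β (X.Cq j (MvPolynomial.X (r, t))), ⟨_, rfl⟩⟩
        exact (e1.symm.trans (h1.trans (h2.symm.trans e2))))
    set T : Set (Pic0 Qb F) := {y | m • y = X.cls j (X.sumP (Q (ψ c₀)))}
    have hT : T.Finite := by
      rcases Set.eq_empty_or_nonempty T with h | ⟨y₀, hy₀⟩
      · rw [h]; exact Set.finite_empty
      refine ((X.finite_nsmul_torsion m hm).image fun t => y₀ + t).subset
        fun y hy => ⟨y - y₀, ?_, by abel⟩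
      change m • (y - y₀) = 0
      change m • y₀ = _ at hy₀
      change m • y = _ at hy
      rw [nsmul_sub, hy, hy₀, sub_self]
    refine hgood (((X.finite_tuples_of_cls T hT).image
      fun P => X.νT P (i, X.i₀)).subset fun c hc => ?_)
    refine ⟨P (ψ c), ⟨hdet _, ?_⟩, ?_⟩
    · change m • _ = X.cls j (X.sumP (Q (ψ c₀)))
      rw [← hcls, hQQ c hc]
    · change X.νT (P (ψ c)) (i, X.i₀) = c
      rw [← hPv]
      exact hψx c hc
  -- counting
  let M := AlgebraicIndependent.matroid Qb B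
  have hxS : Set.range x ⊆ M.closure S := by
    rintro _ ⟨i, rfl⟩
    rw [AlgebraicIndependent.matroid_closure_eq, SetLike.mem_coe, Subalgebra.mem_algebraicClosure]
    refine IsAlgebraic.adjoin_of_forall_isAlgebraic (s := (β.range : Set B))
      (fun b hb => hQalg b hb.1) ?_
    rw [Algebra.adjoin_eq]
    exact hPalg i
  have hind : M.Indep (Set.range x) :=
    AlgebraicIndependent.matroid_indep_iff.mpr hx.to_subtype_range
  have h1 : ((genusFF Qb F) : ℕ∞) ≤ M.eRk S := by
    have := hind.encard_le_eRk_of_subset hxS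
    rw [Matroid.eRk_closure_eq, ← Set.image_univ, hx.injective.encard_image, Set.encard_univ,
      ENat.card_eq_coe_fintype_card, Fintype.card_fin] at this
    exact this
  have h2 : S.encard ≤ (j : ℕ∞) := by
    rw [show S = s₀ '' Set.univ from Set.image_univ.symm]
    refine le_trans (Set.encard_image_le _ _) ?_
    rw [Set.encard_univ, ENat.card_eq_coe_fintype_card, Fintype.card_fin]
  have hSg : M.eRk S = S.encard := le_antisymm (M.eRk_le_encard S)
    (le_trans (le_trans h2 (by exact_mod_cast hj)) h1)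
  have hgj : (genusFF Qb F) ≤ j := by exact_mod_cast le_trans h1 (le_trans (M.eRk_le_encard S) h2)
  obtain rfl : j = genusFF Qb F := le_antisymm hj hgj
  have hs₀inj : Function.Injective s₀ := by
    rw [← Set.injOn_univ]
    refine Set.InjOn.mono subset_rfl ((Set.finite_univ).injOn_of_encard_image_eq ?_)
    refine le_antisymm (Set.encard_image_le _ _) ?_
    rw [Set.encard_univ, ENat.card_eq_coe_fintype_card, Fintype.card_fin, Set.image_univ]
    exact le_trans h1 (M.eRk_le_encard S)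
  have hSind : AlgebraicIndependent Qb s₀ :=
    AlgebraicIndependent.of_subtype_range hs₀inj (AlgebraicIndependent.matroid_indep_iff.mp
      ((Matroid.indep_iff_eRk_eq_encard_of_finite (Set.finite_range s₀)).mpr hSg))
  have hβinj : Function.Injective β := by
    rw [injective_iff_map_eq_zero]
    intro a ha
    by_contra ha0
    obtain ⟨r, hr0, hdvd⟩ := (X.isIntegral_CRing (genusFF Qb F) a).isAlgebraic.exists_nonzero_dvd
      (mem_nonZeroDivisors_of_ne_zero ha0)
    obtain ⟨p, hp⟩ : (r : X.CRing (genusFF Qb F)) ∈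
        (aeval (fun i : Fin (genusFF Qb F) => X.Cq (genusFF Qb F) (MvPolynomial.X (i, X.i₀)))).range := by
      rw [← Algebra.adjoin_range_eq_range_aeval (R := Qb)]; exact r.2
    have hβr : β (r : X.CRing (genusFF Qb F)) = 0 := by
      obtain ⟨q, hq⟩ := hdvd
      change (r : X.CRing (genusFF Qb F)) = a * q at hq
      rw [hq, map_mul, ha, zero_mul]
    change aeval _ p = _ at hp
    rw [← hp, ← AlgHom.comp_apply, comp_aeval] at hβr
    have hp0 : p = 0 := algebraicIndependent_iff.mp hSind p hβr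
    rw [hp0, map_zero] at hp
    exact hr0 (Subtype.ext hp.symm)
  obtain ⟨r, hr, hext⟩ := exists_extend β hβinj
  obtain ⟨p, rfl⟩ := Ideal.Quotient.mkₐ_surjective Qb (X.Cideal (genusFF Qb F)) r
  refine ⟨p, fun h => hr (X.Cq_eq_zero.mpr h), fun Q hQ hne => ?_⟩
  let φ : X.CRing (genusFF Qb F) →ₐ[Qb] Qb := Ideal.Quotient.liftₐ (X.Cideal (genusFF Qb F)) (aeval (X.νT Q))
    fun q hq => by rw [aeval_eq_eval]; exact X.mem_Cideal.mp hq _ (X.νT_mem hQ)
  have hφ : ∀ q, φ (X.Cq (genusFF Qb F) q) = eval (X.νT Q) q := fun q => rfl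
  obtain ⟨ψ, hψ⟩ := hext φ (by rw [hφ]; exact hne)
  obtain ⟨P, Q', hQ', -, hcls, -, hQv⟩ := hpt ψ
  refine ⟨X.cls (genusFF Qb F) (X.sumP P), ?_⟩
  rw [← hcls]
  congr 2
  refine funext fun r => X.ν_injective (hQ' r) (hQ r) (funext fun t => ?_)
  have := congrFun (congrArg DFunLike.coe hψ) (X.Cq (genusFF Qb F) (MvPolynomial.X (r, t)))
  rw [AlgHom.comp_apply, hQv, hφ, eval_X] at this
  exact this

theorem exists_halved_open (m : ℕ) (hm : 0 < m) : ∃ r : MvPolynomial (X.PV (genusFF Qb F)) Qb,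
    r ∉ X.Cideal (genusFF Qb F) ∧ ∀ Q : Fin (genusFF Qb F) → Place Qb F, (∀ i, Q i ≠ X.pt) →
      eval (X.νT Q) r ≠ 0 → ∃ y : Pic0 Qb F, m • y = X.cls (genusFF Qb F) (X.sumP Q) := by
  classical
  obtain ⟨j, hj, hcomp⟩ := X.exists_component m
  let M : Submonoid (MvPolynomial (X.GVar m j) Qb) :=
    (X.Cideal (genusFF Qb F)).primeCompl.map (rename (X.gP m j))
  have hdisj : Disjoint (vanishingIdeal Qb (X.Gam m j) : Set (MvPolynomial (X.GVar m j) Qb)) M := by
    rw [Set.disjoint_left]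
    rintro _ hmem ⟨p, hp, rfl⟩
    exact hp (hcomp p hmem)
  obtain ⟨𝔭, h𝔭, hle, hPM⟩ := Ideal.exists_le_prime_disjoint _ M hdisj
  haveI := h𝔭
  let π : MvPolynomial (X.GVar m j) Qb →ₐ[Qb] MvPolynomial (X.GVar m j) Qb ⧸ 𝔭 :=
    Ideal.Quotient.mkₐ Qb 𝔭
  haveI : Algebra.FiniteType Qb (MvPolynomial (X.GVar m j) Qb ⧸ 𝔭) :=
    Algebra.FiniteType.of_surjective π (Ideal.Quotient.mkₐ_surjective Qb 𝔭)
  have hvan : ∀ q : MvPolynomial (X.GVar m j) Qb, (∀ z ∈ X.Gam m j, eval z q = 0) → π q = 0 :=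
    fun q hq => Ideal.Quotient.eq_zero_iff_mem.mpr (hle (mem_vanishingIdeal_iff.mpr fun z hz => by
      rw [aeval_eq_eval]; exact hq z hz))
  let α : X.CRing (genusFF Qb F) →ₐ[Qb] MvPolynomial (X.GVar m j) Qb ⧸ 𝔭 :=
    Ideal.Quotient.liftₐ _ (π.comp (rename (X.gP m j))) fun q hq => hvan _ fun z hz => by
      change eval z (rename (X.gP m j) q) = 0
      rw [eval_rename]; exact X.mem_Cideal.mp hq _ hz.1
  let β : X.CRing j →ₐ[Qb] MvPolynomial (X.GVar m j) Qb ⧸ 𝔭 :=
    Ideal.Quotient.liftₐ _ (π.comp (rename (X.gQ m j))) fun q hq => hvan _ fun z hz => by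
      change eval z (rename (X.gQ m j) q) = 0
      rw [eval_rename]; exact X.mem_Cideal.mp hq _ hz.2.1
  have hα : Function.Injective α := by
    rw [injective_iff_map_eq_zero]
    intro b hb
    obtain ⟨p, rfl⟩ := Ideal.Quotient.mkₐ_surjective Qb (X.Cideal (genusFF Qb F)) b
    refine X.Cq_eq_zero.mpr ?_
    by_contra hp
    exact Set.disjoint_left.mp hPM (Ideal.Quotient.eq_zero_iff_mem.mp hb) ⟨p, hp, rfl⟩
  refine X.halved_open_of_component hm hj α β hα fun ψ => ?_
  set z : X.GVar m j → Qb := fun v => ψ (π (MvPolynomial.X v)) with hz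
  have hzG : z ∈ X.Gam m j := by
    have hpt : ∀ p : MvPolynomial (X.GVar m j) Qb, eval z p = ψ (π p) := fun p =>
      (congrFun (congrArg DFunLike.coe (MvPolynomial.aeval_unique (ψ.comp π))) p).symm
    obtain ⟨R, hR⟩ := X.isAlgSet_Gam m j
    rw [hR]
    intro q hq
    rw [hpt, hvan q (fun w hw => by rw [hR] at hw; exact hw q hq), map_zero]
  obtain ⟨P, Q, -, hQ, hPe, hQe, hdet, hcls⟩ := X.Gam_sound m j hzG
  refine ⟨P, Q, hQ, hdet, hcls, fun v => ?_, fun v => ?_⟩
  · rw [hPe]
    change ψ (π (rename (X.gP m j) (MvPolynomial.X v))) = _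
    rw [rename_X]; rfl
  · rw [hQe]
    change ψ (π (rename (X.gQ m j) (MvPolynomial.X v))) = _
    rw [rename_X]; rfl

include X in
/-- The group of classes is divisible. -/
theorem exists_nsmul_eq (m : ℕ) (hm : 0 < m) (y : Pic0 Qb F) : ∃ z : Pic0 Qb F, m • z = y := by
  classical
  rcases Nat.eq_zero_or_pos (genusFF Qb F) with hg | hg
  · obtain ⟨D, hD, hdeg, rfl⟩ := X.exists_cls y (n := 0) (by omega)
    have : D = 0 := (eq_of_le_of_degree hD (by rw [map_zero, hdeg]; rfl)).symm
    subst this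
    refine ⟨0, ?_⟩
    rw [nsmul_zero, eq_comm, X.cls_eq_zero_iff (by rw [map_zero]; rfl)]
    exact ⟨1, one_ne_zero, by simp [zdiv]⟩
  obtain ⟨r, hr, hO⟩ := X.exists_halved_open m hm
  rw [X.mem_Cideal] at hr
  push Not at hr
  obtain ⟨a, ha, hra⟩ := hr
  obtain ⟨P, hP, rfl⟩ := X.exists_of_mem_Cpow ha
  set H : AddSubgroup (Pic0 Qb F) := (nsmulAddMonoidHom (α := Pic0 Qb F) m).range with hH
  have memH : ∀ y, y ∈ H ↔ ∃ z, m • z = y := fun y => by
    rw [hH, AddMonoidHom.mem_range]
    simp only [nsmulAddMonoidHom_apply]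
  let i : Fin (genusFF Qb F) := ⟨0, hg⟩
  have hfin : {Q : Place Qb F | Q ≠ X.pt ∧ eval (X.νT (Function.update P i Q)) r = 0}.Finite :=
    (X.finite_zeros_update r P i).resolve_right fun hall => hra (by simpa using hall (P i) (hP i))
  set bad : Finset (Place Qb F) := insert X.pt hfin.toFinset with hbad
  have hgood : ∀ Q, Q ∉ bad →
      X.cls 1 (Finsupp.single Q 1) - X.cls 1 (Finsupp.single (P i) 1) ∈ H := by
    intro Q hQ
    simp only [hbad, Finset.mem_insert, Set.Finite.mem_toFinset, Set.mem_ofPred_eq, not_or,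
      not_and] at hQ
    have hne : ∀ r, Function.update P i Q r ≠ X.pt := fun r => by
      rcases eq_or_ne r i with rfl | h
      · simpa using hQ.1
      · simpa [Function.update_of_ne h] using hP r
    have h1 := hO (Function.update P i Q) hne (hQ.2 hQ.1)
    have h2 := hO P hP hra
    rw [← memH] at h1 h2
    have e : X.sumP (Function.update P i Q) + Finsupp.single (P i) 1 =
        X.sumP P + Finsupp.single Q 1 := by
      rw [sumP, sumP, ← Finset.add_sum_erase _ _ (Finset.mem_univ i),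
        ← Finset.add_sum_erase _ _ (Finset.mem_univ i), Function.update_self,
        Finset.sum_congr rfl fun r hr => by rw [Function.update_of_ne (Finset.ne_of_mem_erase hr)]]
      abel
    have d1 : ∀ R : Place Qb F, Divisor.degree (Finsupp.single R 1) = ((1 : ℕ) : ℤ) := fun R => by
      rw [degree_single']; rfl
    have ec := congrArg (X.cls (genusFF Qb F + 1)) e
    rw [X.cls_add (X.degree_sumP _) (d1 _), X.cls_add (X.degree_sumP _) (d1 _)] at ec
    have : X.cls 1 (Finsupp.single Q 1) - X.cls 1 (Finsupp.single (P i) 1) =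
        X.cls (genusFF Qb F) (X.sumP (Function.update P i Q)) -
          X.cls (genusFF Qb F) (X.sumP P) := by
      rw [sub_eq_sub_iff_add_eq_add, add_comm, ← ec]
    rw [this]
    exact H.sub_mem h1 h2
  have hsum : ∀ (n : ℕ) (Q : Fin n → Place Qb F), (∀ r, Q r ∉ bad) →
      X.cls n (X.sumP Q) - n • X.cls 1 (Finsupp.single (P i) 1) ∈ H := by
    intro n
    induction n with
    | zero =>
      intro Q _
      rw [zero_nsmul, sub_zero, sumP, Finset.univ_eq_empty, Finset.sum_empty,
        (X.cls_eq_zero_iff (n := 0) (D := 0) (by rw [map_zero]; rfl)).mpr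
          ⟨1, one_ne_zero, by simp [zdiv]⟩]
      exact H.zero_mem
    | succ n ih =>
      intro Q hQ
      have e : X.sumP Q = X.sumP (fun r => Q (Fin.castSucc r)) +
          Finsupp.single (Q (Fin.last n)) 1 := by
        rw [sumP, sumP, Fin.sum_univ_castSucc]
      rw [e, X.cls_add (X.degree_sumP _) (by rw [degree_single']; rfl), succ_nsmul,
        add_sub_add_comm]
      exact H.add_mem (ih _ fun r => hQ _) (hgood _ (hQ _))
  have hn : bnd Qb F + 1 ≤ ec F := le_rfl
  obtain ⟨D, hD, hDn, hDy, hDS⟩ := X.exists_cls_avoid y bad hn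
  obtain ⟨E, hE, hEn, hEy, hES⟩ := X.exists_cls_avoid 0 bad hn
  obtain ⟨Q, hQ, hQ1⟩ := exists_sumP_eq X _ D hD hDn
  obtain ⟨R, hR, hR1⟩ := exists_sumP_eq X _ E hE hEn
  have a1 := hsum _ Q fun r h => by have := hQ1 r; rw [hDS _ h] at this; omega
  have a2 := hsum _ R fun r h => by have := hR1 r; rw [hES _ h] at this; omega
  rw [hQ, hDy] at a1
  rw [hR, hEy] at a2
  have := H.sub_mem a1 a2
  rw [sub_sub_sub_cancel_right, sub_zero] at this
  exact (memH y).mp this

include X in
/-- Every class is twice a class. -/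
theorem exists_half (y : Pic0 Qb F) : ∃ z : Pic0 Qb F, z + z = y :=
  (X.exists_nsmul_eq 2 two_pos y).imp fun z hz => by rwa [← two_nsmul]

end Coords

end Fermat.Agent.MordellWeil
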