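import Fermat.Agent.MordellWeil.ModularCoords

/-!
# Mordell–Weil, torsion and divisibility for `J₀(N)`
-/

set_option autoImplicit false
set_option linter.style.haveILetI false
set_option linter.unusedSectionVars false

noncomputable section

open AlgebraicCurve ModularCurve

namespace Fermat.Agent.MordellWeil

variable (N : ℕ) [NeZero N]

/-- `J₀(N)(ℚ̄)` is divisible. -/
theorem jZero_exists_nsmul_eq (m : ℕ) (hm : 0 < m) (x : JZero N) : ∃ z : JZero N, m • z = x :=
  (x0Coords N).exists_nsmul_eq m hm x

/-- The `m`-torsion of `J₀(N)` is finite. -/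
theorem jZero_finite_torsion (m : ℕ) (hm : 0 < m) : {x : JZero N | m • x = 0}.Finite :=
  (x0Coords N).finite_nsmul_torsion m hm

/-- The Mordell–Weil theorem for `J₀(N)`. -/
theorem jZero_fg [Fact N.Prime] :
    AddGroup.FG ↥(FixedPoints.addSubgroup (Qb ≃ₐ[ℚ] Qb) (JZero N)) := by
  have h := (x0GalAct N).fg_fixedClasses (arithmeticGalois (modularFunctionFieldFull N))
    fun _ => rfl
  have e : (FixedPoints.addSubgroup (Qb ≃ₐ[ℚ] Qb) (JZero N)) = (x0GalAct N).fixedClasses := by
    ext y
    rw [Coords.GalAct.mem_fixedClasses]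
    exact Iff.rfl
  rw [e]
  exact (AddGroup.fg_iff_addSubgroup_fg _).mpr h

end Fermat.Agent.MordellWeil
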