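import Fermat.Agent.MordellWeil.HeightExt
import Mathlib.FieldTheory.IsAlgClosed.AlgebraicClosure
import Mathlib.FieldTheory.IntermediateField.Adjoin.Basic

/-!
# The absolute logarithmic height of tuples of algebraic numbers
-/

set_option autoImplicit false

noncomputable section

open Height NumberField IntermediateField

namespace Fermat.Agent.MordellWeil

/-- The field of algebraic numbers. -/
abbrev Qb : Type := AlgebraicClosure ℚ

instance isAlgebraic_qb : Algebra.IsAlgebraic ℚ Qb := AlgebraicClosure.isAlgebraic ℚ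

theorem numberField_of_finite (L : IntermediateField ℚ Qb) [FiniteDimensional ℚ L] :
    NumberField L := {}

/-- A finite extension of `ℚ` inside `Qb` containing a given finite family. -/
theorem exists_field_mem {σ : Type*} [Finite σ] (x : σ → Qb) :
    ∃ L : IntermediateField ℚ Qb, FiniteDimensional ℚ L ∧ ∀ i, x i ∈ L := by
  have : Finite (Set.range x) := Set.finite_range x
  exact ⟨adjoin ℚ (Set.range x),
    IntermediateField.finiteDimensional_adjoin (fun a _ => Algebra.IsIntegral.isIntegral a),
    fun i => subset_adjoin ℚ _ ⟨i, rfl⟩⟩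

/-- The height computed in a given number field, normalised by the degree. -/
def fieldHeight {σ : Type*} [Finite σ] (L : IntermediateField ℚ Qb) [FiniteDimensional ℚ L]
    (x : σ → L) : ℝ :=
  haveI := numberField_of_finite L
  logHeight x / Module.finrank ℚ L

theorem fieldHeight_of_le {σ : Type*} [Finite σ] {L M : IntermediateField ℚ Qb}
    [FiniteDimensional ℚ L] [FiniteDimensional ℚ M] (h : L ≤ M) (x : σ → L) :
    fieldHeight M (fun i => inclusion h (x i)) = fieldHeight L x := by
  have := numberField_of_finite L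
  have := numberField_of_finite M
  let : Algebra L M := (inclusion h).toRingHom.toAlgebra
  have : IsScalarTower ℚ L M := IsScalarTower.of_algebraMap_eq fun q => rfl
  have : Module.Finite L M := Module.Finite.right ℚ L M
  have e : (fun i => inclusion h (x i)) = fun i => algebraMap L M (x i) := rfl
  rw [fieldHeight, fieldHeight, e, logHeight_extend, ← Module.finrank_mul_finrank ℚ L M]
  have h1 : (0 : ℝ) < Module.finrank L M := by exact_mod_cast Module.finrank_pos
  have h2 : (0 : ℝ) < Module.finrank ℚ L := by exact_mod_cast Module.finrank_pos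
  push_cast
  field_simp

/-- The absolute logarithmic height of a tuple of algebraic numbers. -/
def habs {σ : Type*} [Finite σ] (x : σ → Qb) : ℝ :=
  haveI := (exists_field_mem x).choose_spec.1
  fieldHeight (exists_field_mem x).choose
    (fun i => ⟨x i, (exists_field_mem x).choose_spec.2 i⟩)

theorem habs_eq {σ : Type*} [Finite σ] (x : σ → Qb) (L : IntermediateField ℚ Qb)
    [FiniteDimensional ℚ L] (hx : ∀ i, x i ∈ L) :
    habs x = fieldHeight L (fun i => ⟨x i, hx i⟩) := by
  have := (exists_field_mem x).choose_spec.1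
  set M := (exists_field_mem x).choose
  rw [habs, ← fieldHeight_of_le (le_sup_left : M ≤ M ⊔ L)]
  rw [← fieldHeight_of_le (le_sup_right : L ≤ M ⊔ L) (fun i => ⟨x i, hx i⟩)]
  rfl

variable {σ τ : Type*} [Finite σ] [Finite τ]

theorem habs_nonneg (x : σ → Qb) : 0 ≤ habs x := by
  have := (exists_field_mem x).choose_spec.1
  have := numberField_of_finite (exists_field_mem x).choose
  exact div_nonneg (logHeight_nonneg _) (Nat.cast_nonneg _)

@[simp]
theorem habs_zero : habs (0 : σ → Qb) = 0 := by
  obtain ⟨L, hL, hmem⟩ := exists_field_mem (0 : σ → Qb)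
  have := hL
  have := numberField_of_finite L
  rw [habs_eq _ L hmem, fieldHeight, show (fun i => (⟨(0 : σ → Qb) i, hmem i⟩ : L)) = 0 from rfl,
    logHeight_zero, zero_div]

theorem habs_smul (x : σ → Qb) {c : Qb} (hc : c ≠ 0) : habs (c • x) = habs x := by
  obtain ⟨L, hL, hmem⟩ := exists_field_mem (Sum.elim x (fun _ : Unit => c))
  have := hL
  have := numberField_of_finite L
  have hx : ∀ i, x i ∈ L := fun i => hmem (.inl i)
  have hcL : c ∈ L := hmem (.inr ())
  have hcx : ∀ i, (c • x) i ∈ L := fun i => L.mul_mem hcL (hx i)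
  rw [habs_eq _ L hcx, habs_eq _ L hx, fieldHeight, fieldHeight,
    show (fun i => (⟨(c • x) i, hcx i⟩ : L)) = (⟨c, hcL⟩ : L) • (fun i => (⟨x i, hx i⟩ : L)) from rfl,
    logHeight_smul_eq_logHeight _ (by simpa [Subtype.ext_iff] using hc)]

theorem habs_mul_table {x : σ → Qb} {y : τ → Qb} (hx : x ≠ 0) (hy : y ≠ 0) :
    habs (fun a : σ × τ => x a.1 * y a.2) = habs x + habs y := by
  obtain ⟨L, hL, hmem⟩ := exists_field_mem (Sum.elim x y)
  have := hL
  have := numberField_of_finite L
  have hx' : ∀ i, x i ∈ L := fun i => hmem (.inl i)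
  have hy' : ∀ i, y i ∈ L := fun i => hmem (.inr i)
  have hxy : ∀ a : σ × τ, x a.1 * y a.2 ∈ L := fun a => L.mul_mem (hx' _) (hy' _)
  have h1 : (fun i => (⟨x i, hx' i⟩ : L)) ≠ 0 := fun h => hx <| funext fun i =>
    congrArg Subtype.val (congrFun h i)
  have h2 : (fun i => (⟨y i, hy' i⟩ : L)) ≠ 0 := fun h => hy <| funext fun i =>
    congrArg Subtype.val (congrFun h i)
  rw [habs_eq _ L hxy, habs_eq _ L hx', habs_eq _ L hy', fieldHeight, fieldHeight, fieldHeight,
    ← add_div, ← logHeight_fun_mul_eq h1 h2]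
  rfl

theorem habs_comp_le (f : τ → σ) (x : σ → Qb) : habs (x ∘ f) ≤ habs x := by
  obtain ⟨L, hL, hx⟩ := exists_field_mem x
  have := hL
  have := numberField_of_finite L
  rw [habs_eq (x ∘ f) L (fun i => hx (f i)), habs_eq _ L hx, fieldHeight, fieldHeight]
  exact div_le_div_of_nonneg_right (logHeight_comp_le f (fun i => (⟨x i, hx i⟩ : L)))
    (Nat.cast_nonneg _)

/-- A fixed linear map changes the height by a bounded amount, from above. -/
theorem habs_linear_le [Fintype σ] (A : τ → σ → Qb) :
    ∃ C : ℝ, ∀ x : σ → Qb, habs (fun j => ∑ i, A j i * x i) ≤ habs x + C := by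
  refine ⟨Real.log (Nat.card σ) + habs (fun p : τ × σ => A p.1 p.2), fun x => ?_⟩
  obtain ⟨L, hL, hmem⟩ := exists_field_mem (Sum.elim x (fun p : τ × σ => A p.1 p.2))
  have := hL
  have := numberField_of_finite L
  have hx : ∀ i, x i ∈ L := fun i => hmem (.inl i)
  have hA : ∀ p : τ × σ, A p.1 p.2 ∈ L := fun p => hmem (.inr p)
  have hy : ∀ j, (∑ i, A j i * x i) ∈ L := fun j =>
    sum_mem fun i _ => L.mul_mem (hA (j, i)) (hx i)
  rw [habs_eq _ L hy, habs_eq _ L hx, habs_eq _ L hA, fieldHeight, fieldHeight, fieldHeight]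
  have h2 : (0 : ℝ) < Module.finrank ℚ L := by exact_mod_cast Module.finrank_pos
  have h := logHeight_linearMap_apply_le (fun p : τ × σ => (⟨A p.1 p.2, hA p⟩ : L))
    (fun i => (⟨x i, hx i⟩ : L))
  rw [totalWeight_eq_finrank] at h
  have e : (fun j => ∑ i, (⟨A j i, hA (j, i)⟩ : L) * ⟨x i, hx i⟩) =
      fun j => (⟨∑ i, A j i * x i, hy j⟩ : L) := by
    funext j; exact Subtype.ext (by push_cast; rfl)
  rw [e] at h
  rw [div_le_iff₀ h2]
  calc _ ≤ _ := h
    _ = _ := by field_simp; ring

end Fermat.Agent.MordellWeil
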