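import Fermat.Agent.MordellWeil.SquareClasses

/-!
# Finitely many quadratic characters unramified outside a finite set
-/

set_option autoImplicit false
set_option linter.style.haveILetI false
set_option linter.unusedSectionVars false

noncomputable section

open scoped Pointwise

namespace Fermat.Agent.MordellWeil

open Fermat.Agent.Arith
open Fermat.Agent.Mazur.Eisenstein (ordAt_pow exists_int_ordAt)

/-- A square root. -/
def sqrtQ (r : QBar) : QBar := (IsAlgClosed.exists_pow_nat_eq r two_pos).choose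

theorem sqrtQ_sq (r : QBar) : sqrtQ r ^ 2 = r :=
  (IsAlgClosed.exists_pow_nat_eq r two_pos).choose_spec

open Classical in
/-- The quadratic character of `r`. -/
def quadChar (r : QBar) (σ : GQ) : ZMod 2 := if σ (sqrtQ r) = sqrtQ r then 0 else 1

variable {K : IntermediateField ℚ QBar}

theorem exists_sqrt_of_character [FiniteDimensional ℚ K] (χ : GQ → ZMod 2)
    (hmul : ∀ g ∈ K.fixingSubgroup, ∀ h ∈ K.fixingSubgroup, χ (g * h) = χ g + χ h)
    (L : IntermediateField ℚ QBar) [FiniteDimensional ℚ L]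
    (hL : ∀ σ ∈ K.fixingSubgroup, (∀ x ∈ L, σ x = x) → χ σ = 0)
    (hne : ∃ h ∈ K.fixingSubgroup, χ h ≠ 0) :
    ∃ α : QBar, α ≠ 0 ∧ α ^ 2 ∈ K ∧
      ∀ σ ∈ K.fixingSubgroup, (σ α = α ↔ χ σ = 0) := by
  have h1 : χ 1 = 0 := by simpa using hmul 1 (one_mem _) 1 (one_mem _)
  have hinv : ∀ g ∈ K.fixingSubgroup, χ g⁻¹ = χ g := fun g hg => by
    have h := hmul g hg g⁻¹ (inv_mem hg)
    rw [mul_inv_cancel, h1] at h
    rw [eq_neg_of_add_eq_zero_right h.symm, ZMod.neg_eq_self_mod_two]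
  let N : Subgroup GQ :=
    { carrier := {σ | σ ∈ K.fixingSubgroup ∧ χ σ = 0}
      one_mem' := ⟨one_mem _, h1⟩
      mul_mem' := fun ha hb => ⟨mul_mem ha.1 hb.1, by rw [hmul _ ha.1 _ hb.1, ha.2, hb.2, add_zero]⟩
      inv_mem' := fun ha => ⟨inv_mem ha.1, by rw [hinv _ ha.1, ha.2]⟩ }
  have hopen : IsOpen (N : Set GQ) := by
    refine Subgroup.isOpen_mono (fun σ hσ => ?_) (IntermediateField.fixingSubgroup_isOpen (K ⊔ L))
    have hfix := (IntermediateField.mem_fixingSubgroup_iff _ _).mp hσ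
    have hK : σ ∈ K.fixingSubgroup := (IntermediateField.mem_fixingSubgroup_iff _ _).mpr
      fun x hx => hfix x ((le_sup_left : K ≤ K ⊔ L) hx)
    exact ⟨hK, hL σ hK fun x hx => hfix x ((le_sup_right : L ≤ K ⊔ L) hx)⟩
  obtain ⟨h₀, hh₀, hχ₀⟩ := hne
  replace hχ₀ : χ h₀ = 1 := Fin.eq_one_of_ne_zero _ hχ₀
  have hfix : (IntermediateField.fixedField N).fixingSubgroup = N :=
    InfiniteGalois.fixingSubgroup_fixedField ⟨N, N.isClosed_of_isOpen hopen⟩
  obtain ⟨β, hβ, hβ₀⟩ : ∃ β ∈ IntermediateField.fixedField N, h₀ β ≠ β := by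
    by_contra hno
    push Not at hno
    have : h₀ ∈ N := hfix ▸ (IntermediateField.mem_fixingSubgroup_iff _ _).mpr hno
    exact one_ne_zero (hχ₀.symm.trans this.2)
  have hN : ∀ σ ∈ K.fixingSubgroup, χ σ = 0 → σ β = β := fun σ hσ h => hβ ⟨σ, hσ, h⟩
  have hzero : ∀ σ ∈ K.fixingSubgroup, χ σ = 0 → σ (β - h₀ β) = β - h₀ β := by
    intro σ hσ h
    have hc : (h₀⁻¹ * σ * h₀) β = β := hN _ (mul_mem (mul_mem (inv_mem hh₀) hσ) hh₀) (by
      rw [hmul _ (mul_mem (inv_mem hh₀) hσ) _ hh₀, hmul _ (inv_mem hh₀) _ hσ, hinv _ hh₀, h,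
        add_zero, CharTwo.add_self_eq_zero])
    have : σ (h₀ β) = h₀ β := by
      conv_rhs => rw [← hc]
      rw [AlgEquiv.mul_apply, AlgEquiv.mul_apply, AlgEquiv.aut_inv, AlgEquiv.apply_symm_apply]
    rw [map_sub, hN σ hσ h, this]
  have hneg : h₀ (β - h₀ β) = -(β - h₀ β) := by
    have : (h₀ * h₀) β = β :=
      hN _ (mul_mem hh₀ hh₀) (by rw [hmul _ hh₀ _ hh₀, CharTwo.add_self_eq_zero])
    rw [AlgEquiv.mul_apply] at this
    rw [map_sub, this, neg_sub]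
  set α := β - h₀ β
  have hα : α ≠ 0 := sub_ne_zero.mpr (Ne.symm hβ₀)
  have hone : ∀ σ ∈ K.fixingSubgroup, χ σ = 1 → σ α = -α := by
    intro σ hσ h
    have hc := hzero (h₀⁻¹ * σ) (mul_mem (inv_mem hh₀) hσ) (by
      rw [hmul _ (inv_mem hh₀) _ hσ, hinv _ hh₀, hχ₀, h, CharTwo.add_self_eq_zero])
    rw [← hneg]
    conv_rhs => rw [← hc]
    rw [AlgEquiv.mul_apply, AlgEquiv.aut_inv, AlgEquiv.apply_symm_apply]
  refine ⟨α, hα, ?_, fun σ hσ => ?_⟩
  · rw [← InfiniteGalois.fixedField_fixingSubgroup K]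
    rintro ⟨σ, hσ⟩
    change σ (α ^ 2) = α ^ 2
    rcases eq_or_ne (χ σ) 0 with h | h
    · rw [map_pow, hzero σ hσ h]
    · rw [map_pow, hone σ hσ (Fin.eq_one_of_ne_zero _ h), neg_sq]
  · refine ⟨fun h => ?_, fun h => hzero σ hσ h⟩
    by_contra hne
    rw [hone σ hσ (Fin.eq_one_of_ne_zero _ hne)] at h
    exact hα (by linear_combination (-1 / 2 : QBar) * h)

/-- Finitely many characters of `Gal(ℚ̄/K)` of order two are unramified outside `d`. -/
theorem exists_finite_characters [NumberField K] [IsGalois ℚ K] {d : ℕ} (hd : d ≠ 0)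
    (hunr : UnramifiedOutside K d) :
    ∃ Φ : Set (GQ → ZMod 2), Φ.Finite ∧ ∀ χ : GQ → ZMod 2,
      (∀ g ∈ K.fixingSubgroup, ∀ h ∈ K.fixingSubgroup, χ (g * h) = χ g + χ h) →
      (∃ L : IntermediateField ℚ QBar, FiniteDimensional ℚ L ∧
        ∀ σ ∈ K.fixingSubgroup, (∀ x ∈ L, σ x = x) → χ σ = 0) →
      (∀ (p : ℕ) (A : ValuationSubring QBar), p.Prime → A.LiesOverPrime p → ¬ p ∣ d →
        ∀ σ ∈ A.inertiaSubgroupIn ℚ, χ σ = 0) →
      ∃ φ ∈ Φ, ∀ h ∈ K.fixingSubgroup, χ h = φ h := by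
  classical
  obtain ⟨R, hR, hRK⟩ := exists_finite_square_classes hd hunr
  refine ⟨insert 0 (quadChar '' R), (hR.image _).insert _, fun χ hmul ⟨L, hLf, hL⟩ hin => ?_⟩
  by_cases hne : ∃ h ∈ K.fixingSubgroup, χ h ≠ 0
  swap
  · push Not at hne
    exact ⟨0, Set.mem_insert _ _, hne⟩
  obtain ⟨α, hα, hα2, hχ⟩ := exists_sqrt_of_character χ hmul L hL hne
  have hev : EvenOutside d (α ^ 2) := fun p A hp hA hpd => by
    obtain ⟨k, hk⟩ := exists_int_ordAt hA hp hα fun σ hσ =>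
      (hχ σ ((IntermediateField.mem_fixingSubgroup_iff _ _).mpr (hunr p A hp hA hpd σ hσ))).mpr
        (hin p A hp hA hpd σ hσ)
    exact ⟨k, by rw [ordAt_pow hA hp hα, hk]; norm_num⟩
  obtain ⟨r, hr, b, hb, e⟩ := hRK _ hα2 (pow_ne_zero _ hα) hev
  refine ⟨_, Set.mem_insert_of_mem _ (Set.mem_image_of_mem _ hr), fun σ hσ => ?_⟩
  have hb0 : b ≠ 0 := fun h => hα (pow_eq_zero_iff two_ne_zero |>.mp (by rw [e, h]; simp))
  have hσb : σ b = b := (IntermediateField.mem_fixingSubgroup_iff _ _).mp hσ b hb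
  have hiff : σ α = α ↔ σ (sqrtQ r) = sqrtQ r := by
    rw [← sqrtQ_sq r, ← mul_pow] at e
    rcases sq_eq_sq_iff_eq_or_eq_neg.mp e with h | h <;> rw [h]
    · rw [map_mul, hσb, mul_left_inj' hb0]
    · rw [map_neg, map_mul, hσb, neg_inj, mul_left_inj' hb0]
  simp only [quadChar]
  split_ifs with hs
  · exact (hχ σ hσ).mp (hiff.mpr hs)
  · exact Fin.eq_one_of_ne_zero _ fun h => hs (hiff.mp ((hχ σ hσ).mpr h))

end Fermat.Agent.MordellWeil
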