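import Fermat.Agent.MordellWeil.TorsionFinite
import Fermat.Agent.Arith.Frobenius

/-!
# Inertia outside a finite set does not translate classes by a given class

A Chevalley–Weil argument: two normalised pairs differing by a fixed nonzero class have no common
value, so by the Nullstellensatz their coordinates stay distinct modulo almost every prime.
-/

set_option autoImplicit false
set_option linter.style.haveILetI false
set_option linter.unusedSectionVars false

noncomputable section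

open AlgebraicCurve Fermat.Agent.FF
open scoped Pointwise

namespace Fermat.Agent.MordellWeil

theorem exists_ratio_mem (P : ValuationSubring Qb) {ι : Type*} [Fintype ι] {v : ι → Qb}
    (hv : v ≠ 0) : ∃ i, v i ≠ 0 ∧ ∀ j, v j / v i ∈ P := by
  classical
  obtain ⟨i₀, hi₀⟩ := Function.ne_iff.mp hv
  obtain ⟨i, -, hi⟩ :=
    (Finset.univ : Finset ι).exists_max_image (fun j => P.valuation (v j)) ⟨i₀, Finset.mem_univ _⟩
  have h0 : v i ≠ 0 := fun h => by
    have := hi i₀ (Finset.mem_univ _)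
    rw [h, map_zero] at this
    exact hi₀ ((map_eq_zero P.valuation).mp (le_antisymm this zero_le))
  refine ⟨i, h0, fun j => (P.valuation_le_one_iff _).mp ?_⟩
  rw [map_div₀, div_le_one₀ (zero_lt_iff.mpr ((map_ne_zero P.valuation).mpr h0))]
  exact hi j (Finset.mem_univ _)

theorem exists_natCast_mul_isIntegral (c : Qb) : ∃ n : ℕ, n ≠ 0 ∧ IsIntegral ℤ ((n : Qb) * c) := by
  obtain ⟨y, hy, h⟩ := ((IsFractionRing.isAlgebraic_iff ℤ ℚ Qb).mpr
    (Algebra.IsAlgebraic.isAlgebraic (R := ℚ) c)).exists_integral_multiple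
  refine ⟨y.natAbs, by simpa using hy, ?_⟩
  rw [zsmul_eq_mul] at h
  rcases Int.natAbs_eq y with e | e <;> rw [e] at h
  · simpa using h
  · simpa using h.neg

theorem mem_of_natCast_mul_isIntegral {P : ValuationSubring Qb} {p : ℕ} (hP : P.LiesOverPrime p)
    (hp : p.Prime) {c : Qb} {n : ℕ} (hn : ¬ p ∣ n) (h : IsIntegral ℤ ((n : Qb) * c)) : c ∈ P := by
  have h1 := mt (Arith.natCast_mem_nonunits_iff hP hp n).mp hn
  obtain ⟨h0, hinv⟩ := (Arith.notMem_nonunits_iff (natCast_mem P n)).mp h1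
  have := mul_mem hinv (Arith.mem_of_isIntegral P h)
  rwa [inv_mul_cancel_left₀ h0] at this

theorem eval_mem_subring {V : Type*} (P : ValuationSubring Qb) {q : MvPolynomial V Qb}
    (hq : ∀ m ∈ q.support, q.coeff m ∈ P) {z : V → Qb} (hz : ∀ v, z v ∈ P) :
    MvPolynomial.eval z q ∈ P := by
  rw [MvPolynomial.eval_eq]
  exact sum_mem fun m hm => mul_mem (hq m hm) (prod_mem fun v _ => pow_mem (hz v) _)

theorem FrameCond.map {α : Type*} [DecidableEq α] {k : ℕ} {c : Fin k → α}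
    {Ω : (Fin k → α) → Qb} (h : FrameCond c Ω) (σ : Qb ≃ₐ[ℚ] Qb) :
    FrameCond c fun J => σ (Ω J) := by
  refine ⟨fun j i => (congrArg σ (h.1 j i)).trans (by split_ifs <;> simp), fun J => ?_⟩
  refine Eq.trans ?_ (congrArg σ (h.2 J))
  simp only [plucker]
  rw [AlgEquiv.map_det]
  rfl

variable {F : Type*} [Field F] [Algebra Qb F] [IsFunctionField Qb F]

namespace Coords

variable {X : Coords F}

namespace GalAct

variable (A : X.GalAct) (σ : Qb ≃ₐ[ℚ] Qb)

theorem act_mem_V {m : ℕ} {f : F} (hf : f ∈ X.V m) : A.act σ • f ∈ X.V m := by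
  rw [← X.W_zero] at hf ⊢
  have := A.act_mem_W σ hf
  rwa [smul_zero] at this

theorem act_el (m : ℕ) (q : Fin (X.d m) → Qb) :
    A.act σ • X.el m q = X.el m fun i => σ (q i) :=
  X.co_injOn (A.act_mem_V σ (X.el_mem _ _)) (X.el_mem _ _)
    (by rw [A.co_act σ m _ (X.el_mem _ _), co_el, co_el])

theorem act_mem_map {r : ℕ} {u f : F} (h : f ∈ (X.V r).map (LinearMap.mulLeft Qb u)) :
    A.act σ • f ∈ (X.V r).map (LinearMap.mulLeft Qb (A.act σ • u)) := by
  obtain ⟨g, hg, rfl⟩ := h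
  exact ⟨A.act σ • g, A.act_mem_V σ hg, by
    rw [LinearMap.mulLeft_apply, LinearMap.mulLeft_apply, smul_mul']⟩

include A in
theorem cond_map {L : PLevel} {c : ∀ b, L.σ X b} {z : (Σ b, L.σ X b) → Qb}
    (h : L.Cond X c z) : L.Cond X c fun a => σ (z a) := by
  obtain ⟨⟨hW, hW', hU⟩, hmul⟩ := h
  refine ⟨⟨hW.map σ, hW'.map σ, (congrArg σ hU).trans (map_one σ)⟩, fun i j => ?_⟩
  have := A.act_mem_map σ (hmul i j)
  rwa [smul_mul', A.act_el, A.act_el, A.act_el] at this

theorem frameSpan_map {m n : ℕ} {D : Divisor Qb F} (hD : 0 ≤ D) (hn : Divisor.degree D = n)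
    (hm : n + bnd Qb F ≤ m) {c : Fin (X.kdim m n) → Fin (X.d m)}
    {Ω : (Fin (X.kdim m n) → Fin (X.d m)) → Qb} (hΩ : FrameCond c Ω)
    (h : X.frameSpan m c Ω = X.W m D) :
    X.frameSpan m c (fun J => σ (Ω J)) = X.W m (A.act σ • D) := by
  haveI := X.finiteDimensional_of_le (X.W_le (m := m) (A.smul_nonneg σ hD))
  refine Submodule.eq_of_le_of_finrank_eq (Submodule.span_le.mpr ?_) (by
    rw [X.finrank_frameSpan (hΩ.map σ),
      X.finrank_W ((SemilinearAut.degree_smul _ _).trans hn) hm])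
  rintro _ ⟨j, rfl⟩
  have h1 : X.el m (uvec Ω (c, j)) ∈ X.W m D := h ▸ Submodule.subset_span ⟨j, rfl⟩
  have := A.act_mem_W σ h1
  rwa [A.act_el] at this

/-- Every class is fixed by an open subgroup. -/
theorem exists_field_fix (y : Pic0 Qb F) : ∃ L : IntermediateField ℚ Qb, FiniteDimensional ℚ L ∧
    ∀ σ : Qb ≃ₐ[ℚ] Qb, (∀ q ∈ L, σ q = q) → A.act σ • y = y := by
  classical
  have hgb := genus_le_bnd (K := Qb) (F := F)
  obtain ⟨D, D', u, h, hcls⟩ := X.exists_pair y (n := a0 F) (n' := a0 F)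
    (by simp only [a0]; omega) (by simp only [a0]; omega)
  let x : PLevel.Pt X (selfLevel F) :=
    ⟨D, D', u, h.nonneg, h.nonneg', h.deg, h.deg', h.mem, h.ne, h.div_eq⟩
  have hex : ∀ b, ∃ a, (selfLevel F).vec X b x a ≠ 0 := fun b =>
    Function.ne_iff.mp (PLevel.vec_ne_zero selfLevel_good b x)
  choose c hc using hex
  obtain ⟨hcond, hW, -⟩ := PLevel.cond_ratio selfLevel_good c x hc
  set z : (Σ b, (selfLevel F).σ X b) → Qb :=
    fun a => (selfLevel F).vec X a.1 x a.2 / (selfLevel F).vec X a.1 x (c a.1)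
  haveI : ∀ b, Finite ((selfLevel F).σ X b) := fun b => (selfLevel F).finite_σ X b
  obtain ⟨L, hL, hmem⟩ := exists_field_mem z
  refine ⟨L, hL, fun σ hσ => ?_⟩
  have e := A.frameSpan_map σ (n := a0 F) h.nonneg h.deg
    (by simp only [selfLevel, lev, a0]; omega) hcond.1.1 hW
  have hz : (fun J => σ (z ⟨.W, J⟩)) = fun J => z ⟨.W, J⟩ :=
    funext fun J => hσ _ (hmem ⟨.W, J⟩)
  have e := hW.symm.trans
    ((congrArg (X.frameSpan (selfLevel F).m (c .W)) hz).symm.trans e)
  have hD : D = A.act σ • D := X.eq_of_W_eq h.deg ((SemilinearAut.degree_smul _ _).trans h.deg)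
    (by simp only [selfLevel, lev, a0]; omega) (by simp only [selfLevel, lev, a0]; omega) e
  rw [← hcls, A.smul_cls σ h.deg, ← hD]

end GalAct

/-! ### The relation -/

variable (F) in
/-- The degree of a relation. -/
abbrev t3 : ℕ := a0 F + a0 F + a0 F

variable (F) in
/-- The level of a relation. -/
abbrev r3 : ℕ := lev F + lev F + lev F - t3 F

variable (X) in
/-- Variables of two pairs and a relation. -/
abbrev RVar : Type :=
  (Σ b, (selfLevel F).σ X b) ⊕ (Σ b, (selfLevel F).σ X b) ⊕ Fin (X.d (t3 F))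

variable (X) in
/-- The generators of the auxiliary space. -/
abbrev auxFrame (AT : Divisor Qb F) : Fin (X.kdim (lev F) (a0 F)) → F :=
  PLevel.basisW X (lev F) (X.kdim (lev F) (a0 F)) AT

variable (X) in
/-- Two pairs in the same chart whose first and complementary parts differ by the auxiliary class. -/
def RSet (AT : Divisor Qb F) (c : ∀ b, (selfLevel F).σ X b) (i₁ : Fin (X.d (t3 F))) :
    Set (X.RVar → Qb) :=
  {z | (selfLevel F).Cond X c (fun a => z (.inl a)) ∧
    (selfLevel F).Cond X c (fun a => z (.inr (.inl a))) ∧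
    ∀ i j k, z (.inr (.inr i₁)) = 1 ∧
      X.el (lev F) (uvec (fun J => z (.inr (.inl ⟨.W, J⟩))) (c .W, i)) *
          X.el (lev F) (uvec (fun J => z (.inl ⟨.W', J⟩)) (c .W', j)) * X.auxFrame AT k ∈
        (X.V (r3 F)).map (LinearMap.mulLeft Qb (X.el (t3 F) fun i => z (.inr (.inr i))))}

theorem three_level : t3 F + r3 F = lev F + lev F + lev F := by
  simp only [r3, t3, lev]; omega

theorem isAlgSet_RSet {AT : Divisor Qb F} (hAT : 0 ≤ AT) (hATd : Divisor.degree AT = a0 F)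
    (c : ∀ b, (selfLevel F).σ X b) (i₁ : Fin (X.d (t3 F))) : IsAlgSet (X.RSet AT c i₁) := by
  have hmem := (PLevel.basisW_spec X (m := lev F) hAT hATd
    (by simp only [lev, a0]; omega)).2.2.1
  exact IsAlgSet.and
    (((selfLevel F).isAlgSet_cond X selfLevel_good c).preimage fun _ => IsPoly.coord _)
    (IsAlgSet.and
      (((selfLevel F).isAlgSet_cond X selfLevel_good c).preimage
        (g := fun a (z : X.RVar → Qb) => z (.inr (.inl a))) fun _ => IsPoly.coord _)
      (IsAlgSet.forall_ fun i => IsAlgSet.forall_ fun j => IsAlgSet.forall_ fun k =>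
        X.isAlgSet_mem_map (N := t3 F) three_level
          (IsAlgSet.of_eq (IsPoly.coord _) (IsPoly.const 1))
          (((X.isPolyElt_el fun x => IsPoly.coord _).mul X
            (X.isPolyElt_el fun x => IsPoly.coord _)).mul X (X.isPolyElt_const (hmem k)))
          (X.isPolyElt_el fun i => IsPoly.coord _)
          fun z hz => X.el_ne_zero fun h => one_ne_zero (hz.symm.trans (congrFun h i₁))))

/-- The two pairs of a relation are different. -/
theorem exists_coord_ne {AT : Divisor Qb F} (hAT : 0 ≤ AT) (hATd : Divisor.degree AT = a0 F)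
    (hne : X.cls (a0 F) AT ≠ 0) (c : ∀ b, (selfLevel F).σ X b) (i₁ : Fin (X.d (t3 F)))
    {z : X.RVar → Qb} (hz : z ∈ X.RSet AT c i₁) :
    ∃ a, z (.inr (.inl a)) - z (.inl a) ≠ 0 := by
  by_contra hno
  push Not at hno
  obtain ⟨h₁, h₂, hrel⟩ := hz
  have hlev : a0 F + bnd Qb F + 1 ≤ lev F := by simp only [lev, a0]; omega
  have hk : 0 < X.kdim (lev F) (a0 F) := X.one_le_kdim (by omega)
  obtain ⟨x, hxW, hxW', -⟩ := PLevel.exists_pt selfLevel_good h₁
  obtain ⟨-, hv1⟩ : True ∧ z (.inr (.inr i₁)) = 1 :=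
    ⟨trivial, (hrel ⟨0, hk⟩ ⟨0, hk⟩ ⟨0, hk⟩).1⟩
  set v := X.el (t3 F) fun i => z (.inr (.inr i))
  have hv : v ≠ 0 := X.el_ne_zero fun h => one_ne_zero (hv1.symm.trans (congrFun h i₁))
  have e : (fun J => z (.inr (.inl ⟨.W, J⟩))) = fun J => z (.inl ⟨.W, J⟩) :=
    funext fun J => sub_eq_zero.mp (hno ⟨.W, J⟩)
  obtain ⟨-, hspan, -⟩ := PLevel.basisW_spec X (m := lev F) hAT hATd (by omega)
  have hbase := ((X.isBase_W x.D_degree hlev).mul X (X.isBase_W x.D'_degree hlev)).mul X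
    (X.isBase_W hATd hlev)
  have hle : X.zdiv (t3 F) v ≤ x.D + x.D' + AT := by
    refine hbase.zdiv_le X hv three_level ?_
    rw [show X.W (selfLevel F).m x.D = X.W (lev F) x.D from rfl] at hxW
    rw [show X.W (selfLevel F).m' x.D' = X.W (lev F) x.D' from rfl] at hxW'
    rw [← hxW, ← hxW', ← hspan, Coords.frameSpan, Coords.frameSpan, Submodule.span_mul_span,
      Submodule.span_mul_span]
    refine Submodule.span_le.mpr ?_
    rintro _ ⟨_, ⟨_, ⟨i, rfl⟩, _, ⟨j, rfl⟩, rfl⟩, _, ⟨k, rfl⟩, rfl⟩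
    have e' := congrArg (fun w => X.el (lev F) (uvec w (c .W, i))) e
    have := (hrel i j k).2
    erw [e'] at this
    exact this
  have hdeg : Divisor.degree (x.D + x.D' + AT) = (t3 F : ℤ) := by
    rw [map_add, map_add, x.D_degree, x.D'_degree, hATd]; simp [selfLevel]
  have h0 := (X.cls_eq_zero_iff hdeg).mpr
    ⟨v, hv, eq_of_le_of_degree hle (by rw [X.degree_zdiv, hdeg])⟩
  have hDD : Divisor.degree (x.D + x.D') = ((a0 F + a0 F : ℕ) : ℤ) := by
    rw [map_add, x.D_degree, x.D'_degree]; simp [selfLevel]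
  rw [X.cls_add hDD hATd, (X.cls_eq_zero_iff hDD).mpr ⟨x.u, x.u_ne, x.u_div⟩, zero_add] at h0
  exact hne h0

namespace GalAct

variable (A : X.GalAct)

/-- Inertia at almost every prime does not translate a class by a given nonzero class. -/
theorem exists_bad (T : Pic0 Qb F) (hT : T ≠ 0) : ∃ d : ℕ, d ≠ 0 ∧
    ∀ (p : ℕ) (P : ValuationSubring Qb), p.Prime → P.LiesOverPrime p → ¬ p ∣ d →
      ∀ σ ∈ P.inertiaSubgroupIn ℚ, ∀ y : Pic0 Qb F, A.act σ • y ≠ y + T := by
  classical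
  have hgb := genus_le_bnd (K := Qb) (F := F)
  obtain ⟨AT, hAT, hATd, hATc⟩ := X.exists_cls (-T) (n := a0 F) (by simp only [a0]; omega)
  have hne : X.cls (a0 F) AT ≠ 0 := by rw [hATc]; simpa using hT
  haveI : ∀ b, Finite ((selfLevel F).σ X b) := fun b => (selfLevel F).finite_σ X b
  haveI := Fintype.ofFinite (Σ b, (selfLevel F).σ X b)
  choose Q hQ using fun (p : (∀ b, (selfLevel F).σ X b) × Fin (X.d (t3 F))) =>
    exists_partition_of_no_common_zero (X.isAlgSet_RSet hAT hATd p.1 p.2)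
      (fun a : Σ b, (selfLevel F).σ X b =>
        MvPolynomial.X (.inr (.inl a)) - MvPolynomial.X (.inl a))
      (fun z hz => by simpa using exists_coord_ne hAT hATd hne p.1 p.2 hz)
  choose n hn0 hn using exists_natCast_mul_isIntegral
  haveI := Fintype.ofFinite ((∀ b, (selfLevel F).σ X b) × Fin (X.d (t3 F)))
  refine ⟨∏ p, ∏ a, ∏ m ∈ (Q p a).support, n ((Q p a).coeff m),
    Finset.prod_ne_zero_iff.mpr fun p _ => Finset.prod_ne_zero_iff.mpr fun a _ =>
      Finset.prod_ne_zero_iff.mpr fun m _ => hn0 _, fun p P hp hP hpd σ hσ y hy => ?_⟩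
  obtain ⟨-, hres⟩ := Arith.mem_inertia_iff_forall_mem.mp hσ
  have hres' : ∀ q ∈ P, σ q ∈ P := fun q hq => by
    have := add_mem (Arith.mem_of_mem_nonunits (hres q hq)) hq
    rwa [sub_add_cancel] at this
  obtain ⟨D, D', u, h, hcls⟩ := X.exists_pair y (n := a0 F) (n' := a0 F)
    (by simp only [a0]; omega) (by simp only [a0]; omega)
  let x : PLevel.Pt X (selfLevel F) :=
    ⟨D, D', u, h.nonneg, h.nonneg', h.deg, h.deg', h.mem, h.ne, h.div_eq⟩
  have hex : ∀ b, ∃ a, (selfLevel F).vec X b x a ≠ 0 ∧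
      ∀ a', (selfLevel F).vec X b x a' / (selfLevel F).vec X b x a ∈ P := fun b => by
    haveI := Fintype.ofFinite ((selfLevel F).σ X b)
    exact exists_ratio_mem P (PLevel.vec_ne_zero selfLevel_good b x)
  choose c hc hcP using hex
  obtain ⟨hcond, hW, hW'⟩ := PLevel.cond_ratio selfLevel_good c x hc
  set z₁ : (Σ b, (selfLevel F).σ X b) → Qb :=
    fun a => (selfLevel F).vec X a.1 x a.2 / (selfLevel F).vec X a.1 x (c a.1) with hz₁
  have hlev : a0 F + bnd Qb F ≤ lev F := by simp only [lev, a0]; omega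
  have hW₂ := A.frameSpan_map σ (n := a0 F) h.nonneg h.deg hlev hcond.1.1 hW
  have hdD : Divisor.degree (A.act σ • D) = (a0 F : ℤ) :=
    (SemilinearAut.degree_smul _ _).trans h.deg
  set G := A.act σ • D + D' + AT with hG
  have hGd : Divisor.degree G = (t3 F : ℤ) := by
    rw [hG, map_add, map_add, hdD, h.deg', hATd]; simp
  have hDD : Divisor.degree (D + D') = ((a0 F + a0 F : ℕ) : ℤ) := by
    rw [map_add, h.deg, h.deg']; simp
  have hy' : X.cls (a0 F) D' = -y := by
    have h2 := (X.cls_eq_zero_iff hDD).mpr ⟨u, h.ne, h.div_eq⟩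
    rw [X.cls_add h.deg h.deg', hcls] at h2
    exact (neg_eq_of_add_eq_zero_right h2).symm
  have hG0 : X.cls (t3 F) G = 0 := by
    rw [hG, X.cls_add (by rw [map_add, hdD, h.deg']; simp) hATd, X.cls_add hdD h.deg',
      ← A.smul_cls σ h.deg, hcls, hy, hy', hATc]
    abel
  obtain ⟨v, hv0, hv⟩ := (X.cls_eq_zero_iff hGd).mp hG0
  have hGn : 0 ≤ G := add_nonneg (add_nonneg (A.smul_nonneg σ h.nonneg) h.nonneg') hAT
  have hvm : v ∈ X.V (t3 F) := X.mem_V_of_zdiv_nonneg (hv ▸ hGn)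
  obtain ⟨i₁, hi₁, hi₁P⟩ := exists_ratio_mem P (X.co_ne_zero hvm hv0)
  set a := X.co (t3 F) v i₁
  let z : X.RVar → Qb :=
    Sum.elim z₁ (Sum.elim (fun t => σ (z₁ t)) fun i => X.co (t3 F) v i / a)
  have hz : z ∈ X.RSet AT c i₁ := by
    refine ⟨hcond, A.cond_map σ hcond, fun i j k => ⟨div_self hi₁, ?_⟩⟩
    have m1 : X.el (lev F) (uvec (fun J => σ (z₁ ⟨.W, J⟩)) (c .W, i)) ∈
        X.W (lev F) (A.act σ • D) := hW₂ ▸ Submodule.subset_span ⟨i, rfl⟩
    have m2 : X.el (lev F) (uvec (fun J => z₁ ⟨.W', J⟩) (c .W', j)) ∈ X.W (lev F) D' :=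
      hW' ▸ Submodule.subset_span ⟨j, rfl⟩
    have m3 : X.auxFrame AT k ∈ X.W (lev F) AT :=
      (PLevel.basisW_spec X (m := lev F) hAT hATd hlev).2.1 ▸ Submodule.subset_span ⟨k, rfl⟩
    obtain ⟨g, hg, hgf⟩ := X.W_le_map_mul hv0 three_level hv.le
      (X.mul_mem_W (X.mul_mem_W m1 m2) m3)
    refine ⟨a • g, Submodule.smul_mem _ _ hg, ?_⟩
    have hel : X.el (t3 F) (fun i => X.co (t3 F) v i / a) = a⁻¹ • v := by
      have e : (fun i => X.co (t3 F) v i / a) = a⁻¹ • X.co (t3 F) v :=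
        funext fun i => div_eq_inv_mul _ _
      rw [e, ← X.co_smul _ hvm, X.el_co (Submodule.smul_mem _ _ hvm)]
    change LinearMap.mulLeft Qb (X.el (t3 F) fun i => X.co (t3 F) v i / a) (a • g) = _
    rw [LinearMap.mulLeft_apply, hel, smul_mul_smul_comm, inv_mul_cancel₀ hi₁, one_smul]
    exact hgf
  have hzP : ∀ w, z w ∈ P := by
    rintro (⟨b, t⟩ | ⟨b, t⟩ | i)
    · exact hcP b t
    · exact hres' _ (hcP b t)
    · exact hi₁P i
  have hone := hQ (c, i₁) z hz
  have hnu : ∑ t, MvPolynomial.eval z (Q (c, i₁) t) *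
      MvPolynomial.eval z (MvPolynomial.X (.inr (.inl t)) - MvPolynomial.X (.inl t)) ∈
        P.nonunits := sum_mem fun t _ => by
    refine Arith.nonunits_mul_left (eval_mem_subring P (fun m hm => ?_) hzP) ?_
    · refine mem_of_natCast_mul_isIntegral hP hp (fun hdvd => hpd ?_) (hn _)
      exact hdvd.trans (((Finset.dvd_prod_of_mem (fun m => n ((Q (c, i₁) t).coeff m)) hm).trans
        (Finset.dvd_prod_of_mem (fun a => ∏ m ∈ (Q (c, i₁) a).support, n ((Q (c, i₁) a).coeff m))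
          (Finset.mem_univ t))).trans
          (Finset.dvd_prod_of_mem (fun p => ∏ a, ∏ m ∈ (Q p a).support, n ((Q p a).coeff m))
            (Finset.mem_univ (c, i₁))))
    · rw [map_sub, MvPolynomial.eval_X, MvPolynomial.eval_X]
      exact hres _ (hcP t.1 t.2)
  rw [hone] at hnu
  exact Arith.one_notMem_nonunits hnu

end GalAct

end Coords

end Fermat.Agent.MordellWeil
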