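import Fermat.Agent.MordellWeil.Plucker
import Mathlib.LinearAlgebra.Matrix.Determinant.Basic

/-!
# Contraction of a Plücker vector by a linear functional
-/

set_option autoImplicit false

noncomputable section

open Matrix Finset

namespace Fermat.Agent.MordellWeil

variable {F : Type*} [Field F] {α : Type*}

/-- Contraction of a Plücker vector by the functional with coefficients `φ`. -/
def contr [Fintype α] [DecidableEq α] {k : ℕ} (φ : α → F) (Ω : (Fin k → α) → F)
    (a : (Fin k → α) × Fin k) : F :=
  ∑ x, φ x * uvec Ω a x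

theorem sum_mul_plucker_update [Fintype α] [DecidableEq α] {k : ℕ} (φ : α → F)
    (w : Fin k → α → F) (J : Fin k → α) (j : Fin k) :
    ∑ x, φ x * plucker w (Function.update J j x) =
      ∑ i, (∑ x, φ x * w i x) *
        (Matrix.of fun r l => w l (J r) : Matrix (Fin k) (Fin k) F).adjugate i j := by
  simp only [plucker_update_eq, Finset.mul_sum, Finset.sum_mul]
  rw [Finset.sum_comm]
  exact Finset.sum_congr rfl fun i _ => Finset.sum_congr rfl fun x _ => by ring

/-- Contraction in an adapted basis. -/
theorem contr_plucker_adapted [Fintype α] [DecidableEq α] {k : ℕ} (φ : α → F)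
    (w : Fin (k + 1) → α → F) (h : ∀ i : Fin k, ∑ x, φ x * w i.succ x = 0)
    (J : Fin (k + 1) → α) (j : Fin (k + 1)) :
    contr φ (plucker w) (J, j) =
      (-1) ^ (j : ℕ) * (∑ x, φ x * w 0 x) * plucker (Fin.tail w) (fun r => J (j.succAbove r)) := by
  rw [contr]
  simp only [uvec, sum_mul_plucker_update]
  rw [Fin.sum_univ_succ]
  simp only [h, zero_mul, Finset.sum_const_zero, add_zero]
  rw [adjugate_fin_succ_eq_det_submatrix, plucker]
  simp only [Fin.val_zero, add_zero, submatrix]
  have : (Matrix.of fun r l : Fin k =>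
      (Matrix.of fun r l => w l (J r) : Matrix (Fin (k + 1)) (Fin (k + 1)) F) (j.succAbove r)
        (Fin.succAbove 0 l)) = Matrix.of fun r l => Fin.tail w l (J (j.succAbove r)) := by
    ext r l; simp [Fin.tail]
  rw [this]
  ring

end Fermat.Agent.MordellWeil
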