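import Fermat.Agent.MordellWeil.Chart
import Fermat.Agent.MordellWeil.Plucker

/-!
# Polynomial functions, and algebraic conditions built from them
-/

set_option autoImplicit false
set_option linter.unusedSectionVars false

noncomputable section

open MvPolynomial

namespace Fermat.Agent.MordellWeil

variable {V : Type*}

/-- A polynomial function. -/
def IsPoly (f : (V → Qb) → Qb) : Prop := ∃ p : MvPolynomial V Qb, ∀ z, f z = eval z p

namespace IsPoly

theorem const (c : Qb) : IsPoly (fun _ : V → Qb => c) := ⟨C c, fun z => by simp⟩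

theorem coord (v : V) : IsPoly (fun z : V → Qb => z v) := ⟨X v, fun z => by simp⟩

theorem add {f g : (V → Qb) → Qb} (hf : IsPoly f) (hg : IsPoly g) :
    IsPoly (fun z => f z + g z) := by
  obtain ⟨p, hp⟩ := hf; obtain ⟨q, hq⟩ := hg
  exact ⟨p + q, fun z => by simp [hp, hq]⟩

theorem mul {f g : (V → Qb) → Qb} (hf : IsPoly f) (hg : IsPoly g) :
    IsPoly (fun z => f z * g z) := by
  obtain ⟨p, hp⟩ := hf; obtain ⟨q, hq⟩ := hg
  exact ⟨p * q, fun z => by simp [hp, hq]⟩

theorem neg {f : (V → Qb) → Qb} (hf : IsPoly f) : IsPoly (fun z => -f z) := by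
  obtain ⟨p, hp⟩ := hf
  exact ⟨-p, fun z => by simp [hp]⟩

theorem sum {α : Type*} (s : Finset α) {f : α → (V → Qb) → Qb} (h : ∀ a ∈ s, IsPoly (f a)) :
    IsPoly (fun z => ∑ a ∈ s, f a z) := by
  classical
  induction s using Finset.induction_on with
  | empty => simpa using const (V := V) 0
  | insert a s ha ih =>
    simp only [Finset.sum_insert ha]
    exact (h a (Finset.mem_insert_self _ _)).add (ih fun b hb => h b (Finset.mem_insert_of_mem hb))

theorem prod {α : Type*} (s : Finset α) {f : α → (V → Qb) → Qb} (h : ∀ a ∈ s, IsPoly (f a)) :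
    IsPoly (fun z => ∏ a ∈ s, f a z) := by
  classical
  induction s using Finset.induction_on with
  | empty => simpa using const (V := V) 1
  | insert a s ha ih =>
    simp only [Finset.prod_insert ha]
    exact (h a (Finset.mem_insert_self _ _)).mul (ih fun b hb => h b (Finset.mem_insert_of_mem hb))

theorem det {n : Type*} [Fintype n] [DecidableEq n] {M : (V → Qb) → Matrix n n Qb}
    (h : ∀ i j, IsPoly (fun z => M z i j)) : IsPoly (fun z => (M z).det) := by
  simp only [Matrix.det_apply']
  refine sum _ fun s _ => ?_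
  exact (const _).mul (prod _ fun i _ => h _ _)

theorem plucker {α : Type*} {k : ℕ} {w : (V → Qb) → Fin k → α → Qb}
    (h : ∀ j x, IsPoly (fun z => w z j x)) (J : Fin k → α) :
    IsPoly (fun z => MordellWeil.plucker (w z) J) :=
  det fun i j => h j (J i)

theorem comp_coord {W : Type*} {f : (W → Qb) → Qb} (hf : IsPoly f) (g : W → V) :
    IsPoly (fun z : V → Qb => f (z ∘ g)) := by
  obtain ⟨p, hp⟩ := hf
  exact ⟨rename g p, fun z => by simp [hp, eval_rename]⟩

theorem comp {W : Type*} {f : (W → Qb) → Qb} (hf : IsPoly f) {g : W → (V → Qb) → Qb}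
    (hg : ∀ w, IsPoly (g w)) : IsPoly (fun z : V → Qb => f (fun w => g w z)) := by
  obtain ⟨p, hp⟩ := hf
  choose q hq using hg
  refine ⟨bind₁ q p, fun z => ?_⟩
  change f (fun w => g w z) = eval z (bind₁ q p)
  rw [hp, show eval z (bind₁ q p) = eval (fun w => eval z (q w)) p from
    eval₂Hom_bind₁ (RingHom.id Qb) z q p]
  simp [hq]

/-- The polynomial representing a polynomial function. -/
def poly {f : (V → Qb) → Qb} (hf : IsPoly f) : MvPolynomial V Qb := hf.choose

theorem eval_poly {f : (V → Qb) → Qb} (hf : IsPoly f) (z : V → Qb) : eval z hf.poly = f z :=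
  (hf.choose_spec z).symm

end IsPoly

namespace IsAlgSet

theorem of_eq {f g : (V → Qb) → Qb} (hf : IsPoly f) (hg : IsPoly g) :
    IsAlgSet {z | f z = g z} := by
  simpa [hf.eval_poly, hg.eval_poly] using IsAlgSet.eq hf.poly hg.poly

theorem preimage {W : Type*} {Z : Set (W → Qb)} (hZ : IsAlgSet Z) {g : W → (V → Qb) → Qb}
    (hg : ∀ w, IsPoly (g w)) : IsAlgSet {z : V → Qb | (fun w => g w z) ∈ Z} := by
  obtain ⟨R, rfl⟩ := hZ
  simp only [Set.mem_ofPred_eq]
  refine forall_ fun r => forall_ fun _ => ?_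
  simpa using IsAlgSet.of_eq (IsPoly.comp ⟨r, fun z => rfl⟩ hg) (IsPoly.const 0)

/-- Linear dependence of a polynomially varying family. -/
theorem not_linearIndependent {α : Type*} [Fintype α] {k : ℕ}
    {w : (V → Qb) → Fin k → α → Qb} (h : ∀ j x, IsPoly (fun z => w z j x)) :
    IsAlgSet {z | ¬LinearIndependent Qb (w z)} := by
  classical
  have e : {z | ¬LinearIndependent Qb (w z)} = {z | ∀ J, MordellWeil.plucker (w z) J = 0} := by
    ext z
    refine ⟨fun hz J => congrFun (plucker_eq_zero_of_not_linearIndependent hz) J,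
      fun hz hi => plucker_ne_zero hi (funext hz)⟩
  rw [e]
  exact forall_ fun J => of_eq (IsPoly.plucker h J) (IsPoly.const 0)

end IsAlgSet

end Fermat.Agent.MordellWeil
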