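import Fermat.Agent.MordellWeil.Sections
import Fermat.Agent.MordellWeil.PolyFun
import Fermat.Agent.MordellWeil.Contraction

/-!
# Coordinates on Riemann-Roch spaces of multiples of a point, and their heights
-/

set_option autoImplicit false
set_option linter.style.haveILetI false
set_option linter.unusedSectionVars false

noncomputable section

open AlgebraicCurve Fermat.Agent.FF

namespace Fermat.Agent.MordellWeil

variable {F : Type*} [Field F] [Algebra Qb F] [IsFunctionField Qb F]

/-- The space `L(m • pt)`. -/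
def level (pt : Place Qb F) (m : ℕ) : Submodule Qb F :=
  riemannRochSpace (Finsupp.single pt (m : ℤ))

/-- A point together with coordinates on all spaces `L(m • pt)`. -/
structure Coords (F : Type*) [Field F] [Algebra Qb F] where
  pt : Place Qb F
  d : ℕ → ℕ
  coord : ∀ m, ↥(level pt m) ≃ₗ[Qb] (Fin (d m) → Qb)

namespace Coords

variable (X : Coords F)

/-- The space `L(m • pt)`. -/
def V (m : ℕ) : Submodule Qb F := level X.pt m

open Classical in
/-- The coordinate vector of an element of `V m`. -/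
def co (m : ℕ) (f : F) : Fin (X.d m) → Qb :=
  if h : f ∈ X.V m then X.coord m ⟨f, h⟩ else 0

/-- The basis belonging to the coordinates. -/
def e (m : ℕ) (i : Fin (X.d m)) : F := ((X.coord m).symm (Pi.single i 1) : F)

theorem e_mem (m : ℕ) (i : Fin (X.d m)) : X.e m i ∈ X.V m := ((X.coord m).symm _).2

instance finiteDimensional_V (m : ℕ) : FiniteDimensional Qb (X.V m) :=
  finiteDimensional_riemannRochSpace (K := Qb) (Finsupp.single X.pt (m : ℤ))

theorem finiteDimensional_of_le {m : ℕ} {W : Submodule Qb F} (h : W ≤ X.V m) :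
    FiniteDimensional Qb W := Submodule.finiteDimensional_of_le h

theorem co_of_mem {m : ℕ} {f : F} (h : f ∈ X.V m) : X.co m f = X.coord m ⟨f, h⟩ := dif_pos h

theorem co_add {m : ℕ} {f g : F} (hf : f ∈ X.V m) (hg : g ∈ X.V m) :
    X.co m (f + g) = X.co m f + X.co m g := by
  rw [X.co_of_mem hf, X.co_of_mem hg, X.co_of_mem (add_mem hf hg), ← map_add]
  rfl

theorem co_smul {m : ℕ} (c : Qb) {f : F} (hf : f ∈ X.V m) : X.co m (c • f) = c • X.co m f := by
  rw [X.co_of_mem hf, X.co_of_mem (Submodule.smul_mem _ c hf), ← map_smul]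
  rfl

@[simp] theorem co_zero (m : ℕ) : X.co m 0 = 0 := by
  rw [X.co_of_mem (zero_mem _)]; exact map_zero _

theorem co_sum {m : ℕ} {α : Type*} (s : Finset α) {f : α → F} (hf : ∀ a ∈ s, f a ∈ X.V m) :
    X.co m (∑ a ∈ s, f a) = ∑ a ∈ s, X.co m (f a) := by
  classical
  induction s using Finset.induction_on with
  | empty => simp
  | insert a s ha ih =>
    rw [Finset.sum_insert ha, Finset.sum_insert ha, X.co_add (hf a (Finset.mem_insert_self _ _))
      (sum_mem fun b hb => hf b (Finset.mem_insert_of_mem hb)),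
      ih fun b hb => hf b (Finset.mem_insert_of_mem hb)]

theorem co_injOn {m : ℕ} {f g : F} (hf : f ∈ X.V m) (hg : g ∈ X.V m)
    (h : X.co m f = X.co m g) : f = g := by
  rw [X.co_of_mem hf, X.co_of_mem hg] at h
  exact congrArg Subtype.val ((X.coord m).injective h)

theorem co_ne_zero {m : ℕ} {f : F} (hf : f ∈ X.V m) (h0 : f ≠ 0) : X.co m f ≠ 0 := fun h =>
  h0 (X.co_injOn hf (zero_mem _) (by rw [h, co_zero]))

theorem sum_co_smul_e {m : ℕ} {f : F} (hf : f ∈ X.V m) : ∑ i, X.co m f i • X.e m i = f := by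
  classical
  refine X.co_injOn (sum_mem fun i _ => Submodule.smul_mem _ _ (X.e_mem m i)) hf ?_
  rw [X.co_sum _ fun i _ => Submodule.smul_mem _ _ (X.e_mem m i)]
  funext l
  simp only [X.co_smul _ (X.e_mem m _), Finset.sum_apply, Pi.smul_apply, smul_eq_mul]
  have he : ∀ i, X.co m (X.e m i) = Pi.single i 1 := fun i => by
    rw [X.co_of_mem (X.e_mem m i)]; exact (X.coord m).apply_symm_apply _
  simp [he, Pi.single_apply]

theorem mul_mem_V {a b : ℕ} {f g : F} (hf : f ∈ X.V a) (hg : g ∈ X.V b) : f * g ∈ X.V (a + b) := by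
  have := mul_mem_L hf hg
  rwa [← Finsupp.single_add, ← Nat.cast_add] at this

/-- Matrix of multiplication by the element with given coordinates. -/
def mulMat (a b : ℕ) (u : Fin (X.d a) → Qb) (l : Fin (X.d (a + b))) (j : Fin (X.d b)) : Qb :=
  ∑ i, u i * X.co (a + b) (X.e a i * X.e b j) l

theorem co_mul {a b : ℕ} {f g : F} (hf : f ∈ X.V a) (hg : g ∈ X.V b) (l : Fin (X.d (a + b))) :
    X.co (a + b) (f * g) l = ∑ j, X.mulMat a b (X.co a f) l j * X.co b g j := by
  conv_lhs => rw [← X.sum_co_smul_e hf, ← X.sum_co_smul_e hg, Finset.sum_mul_sum]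
  rw [X.co_sum _ fun i _ => sum_mem fun j _ => X.mul_mem_V
      (Submodule.smul_mem _ _ (X.e_mem a i)) (Submodule.smul_mem _ _ (X.e_mem b j)),
    Finset.sum_apply]
  simp only [mulMat, Finset.sum_mul]
  rw [Finset.sum_comm (γ := Fin (X.d b))]
  refine Finset.sum_congr rfl fun i _ => ?_
  rw [X.co_sum _ fun j _ => X.mul_mem_V
      (Submodule.smul_mem _ _ (X.e_mem a i)) (Submodule.smul_mem _ _ (X.e_mem b j)),
    Finset.sum_apply]
  refine Finset.sum_congr rfl fun j _ => ?_
  rw [smul_mul_smul_comm, X.co_smul _ (X.mul_mem_V (X.e_mem a i) (X.e_mem b j))]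
  simp; ring

theorem mulMat_injective {a b : ℕ} {u : Fin (X.d a) → Qb} (hu : u ≠ 0) (c : Fin (X.d b) → Qb)
    (h : ∀ l, ∑ j, X.mulMat a b u l j * c j = 0) : c = 0 := by
  set f : F := ((X.coord a).symm u : F)
  set g : F := ((X.coord b).symm c : F)
  have hf : f ∈ X.V a := ((X.coord a).symm u).2
  have hg : g ∈ X.V b := ((X.coord b).symm c).2
  have hcf : X.co a f = u := by rw [X.co_of_mem hf]; exact (X.coord a).apply_symm_apply u
  have hcg : X.co b g = c := by rw [X.co_of_mem hg]; exact (X.coord b).apply_symm_apply c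
  have hz : f * g = 0 := X.co_injOn (X.mul_mem_V hf hg) (zero_mem _) (by
    funext l; rw [X.co_mul hf hg l, hcf, hcg, h l, co_zero]; rfl)
  have hf0 : f ≠ 0 := fun h0 => hu (by rw [← hcf, h0, co_zero])
  rw [← hcg, (mul_eq_zero.mp hz).resolve_left hf0, co_zero]

/-- Height of an element of `V m`. -/
def hv (m : ℕ) (f : F) : ℝ := habs (X.co m f)

/-- Plücker vector of a tuple of elements of `V m`. -/
def pl (m : ℕ) {k : ℕ} (w : Fin k → F) : (Fin k → Fin (X.d m)) → Qb :=
  plucker fun j => X.co m (w j)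

/-- Height of a subspace of `V m`. -/
def hSub (m : ℕ) (W : Submodule Qb F) : ℝ :=
  habs (X.pl m fun j => (Module.finBasis Qb ↥(W ⊓ X.V m) j : F))

theorem co_linearIndependent {m k : ℕ} {w : Fin k → F} (hw : ∀ j, w j ∈ X.V m)
    (h : LinearIndependent Qb w) : LinearIndependent Qb fun j => X.co m (w j) := by
  rw [Fintype.linearIndependent_iff] at h ⊢
  intro c hc
  refine h c (X.co_injOn (sum_mem fun j _ => Submodule.smul_mem _ _ (hw j)) (zero_mem _) ?_)
  rw [X.co_sum _ fun j _ => Submodule.smul_mem _ _ (hw j), co_zero, ← hc]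
  exact Finset.sum_congr rfl fun j _ => X.co_smul _ (hw j)

theorem pl_ne_zero {m k : ℕ} {w : Fin k → F} (hw : ∀ j, w j ∈ X.V m)
    (h : LinearIndependent Qb w) : X.pl m w ≠ 0 :=
  plucker_ne_zero (X.co_linearIndependent hw h)

/-- Change of frame. -/
theorem pl_eq_mul {m k : ℕ} {w w' : Fin k → F} (hw : ∀ j, w j ∈ X.V m)
    {g : Matrix (Fin k) (Fin k) Qb} (hg : ∀ j, ∑ i, g i j • w i = w' j) :
    X.pl m w' = g.det • X.pl m w := by
  have e : (fun j => X.co m (w' j)) = fun j x => ∑ i, X.co m (w i) x * g i j := by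
    funext j x
    rw [← hg j, X.co_sum _ fun i _ => Submodule.smul_mem _ _ (hw i), Finset.sum_apply]
    exact Finset.sum_congr rfl fun i _ => by simp [X.co_smul _ (hw i), mul_comm]
  funext J
  rw [pl, e, plucker_comb]
  simp [pl, mul_comm]

theorem exists_pl_proportional {m k : ℕ} {w w' : Fin k → F} (hw : ∀ j, w j ∈ X.V m)
    (hind' : LinearIndependent Qb w') (h : ∀ j, w' j ∈ Submodule.span Qb (Set.range w)) :
    ∃ c : Qb, c ≠ 0 ∧ X.pl m w' = c • X.pl m w := by
  choose g hg using fun j => (Submodule.mem_span_range_iff_exists_fun Qb).mp (h j)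
  refine ⟨(Matrix.of fun i j => g j i).det, fun h0 => ?_,
    X.pl_eq_mul hw (g := Matrix.of fun i j => g j i) fun j => hg j⟩
  have hw' : ∀ j, w' j ∈ X.V m := fun j =>
    hg j ▸ sum_mem fun i _ => Submodule.smul_mem _ _ (hw i)
  apply X.pl_ne_zero hw' hind'
  rw [X.pl_eq_mul hw (g := Matrix.of fun i j => g j i) fun j => hg j, h0, zero_smul]

theorem finrank_span_eq {k : ℕ} {w : Fin k → F} (h : LinearIndependent Qb w) :
    Module.finrank Qb (Submodule.span Qb (Set.range w)) = k := by
  rw [finrank_span_eq_card h, Fintype.card_fin]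

theorem hSub_eq {m k : ℕ} {W : Submodule Qb F} (w : Fin k → F) (hW : W ≤ X.V m)
    (hind : LinearIndependent Qb w) (hspan : Submodule.span Qb (Set.range w) = W) :
    X.hSub m W = habs (X.pl m w) := by
  subst hspan
  set S := Submodule.span Qb (Set.range w)
  have hk : Module.finrank Qb ↥(S ⊓ X.V m) = k := by
    rw [inf_of_le_left hW]; exact finrank_span_eq hind
  set b := Module.finBasis Qb ↥(S ⊓ X.V m)
  obtain ⟨c, hc, hcw⟩ := X.exists_pl_proportional (m := m) (w := w)
    (w' := (fun j => (b j : F)) ∘ Fin.cast hk.symm)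
    (fun j => hW (Submodule.subset_span ⟨j, rfl⟩))
    ((b.linearIndependent.map' (Submodule.subtype _) (Submodule.ker_subtype _)).comp _
      (Fin.cast_injective _))
    (fun j => (b _).2.1)
  have h : ∀ {n : ℕ} (bb : Fin n → F) (hn : n = k),
      habs (X.pl m bb) = habs (X.pl m (bb ∘ Fin.cast hn.symm)) := by
    intro n bb hn; subst hn; rfl
  rw [hSub, h _ hk, hcw, habs_smul _ hc]

/-- Two-block index types. -/
def Two (A B : Type) : Bool → Type := fun b => bif b then A else B

instance two_finite (A B : Type) [Finite A] [Finite B] (b : Bool) : Finite (Two A B b) := by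
  cases b <;> assumption

/-- Multiplication by a varying nonzero element changes Plücker heights additively. -/
theorem action_bounds (a b k : ℕ) :
    ∃ C, ∀ (u : Fin (X.d a) → Qb) (z : (Fin k → Fin (X.d b)) → Qb), u ≠ 0 → z ≠ 0 →
      |habs (tens k (X.mulMat a b u) z) - (k * habs u + habs z)| ≤ C := by
  classical
  let σ := Two (Fin (X.d a)) (Fin k → Fin (X.d b))
  let P := {p : (Fin (X.d a) → Qb) × ((Fin k → Fin (X.d b)) → Qb) // p.1 ≠ 0 ∧ p.2 ≠ 0}
  let p : ∀ i, P → σ i → Qb := fun i =>
    match i with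
    | true => fun x => x.1.1
    | false => fun x => x.1.2
  let G : ((Σ i, σ i) → Qb) → (Fin k → Fin (X.d (a + b))) → Qb := fun z =>
    tens k (X.mulMat a b fun r => z ⟨true, r⟩) (fun J => z ⟨false, J⟩)
  have hG : ∀ l, IsPoly (fun z => G z l) := fun l => by
    refine IsPoly.sum _ fun J _ => IsPoly.mul (IsPoly.prod _ fun r _ => ?_) (IsPoly.coord _)
    exact IsPoly.sum _ fun i _ => (IsPoly.coord _).mul (IsPoly.const _)
  let m : ChartMap p (Fin k → Fin (X.d (a + b))) :=
    { y := fun l x => tens k (X.mulMat a b x.1.1) x.1.2 l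
      deg := fun i => match i with | true => k | false => 1
      F := fun c l => (hG l).poly
      eq := fun c l x hx => by
        rw [IsPoly.eval_poly]
        simp only [G, tens, chartMono, Fintype.prod_bool, Finset.mul_sum]
        refine Finset.sum_congr rfl fun J _ => ?_
        have h1 : ∀ r, X.mulMat a b x.1.1 (l r) (J r) = p true x (c true) *
            X.mulMat a b (fun i => ratio p c x ⟨true, i⟩) (l r) (J r) := fun r => by
          simp only [mulMat, Finset.mul_sum]
          refine Finset.sum_congr rfl fun i _ => ?_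
          rw [show x.1.1 i = p true x (c true) * ratio p c x ⟨true, i⟩ from
            (mul_div_cancel₀ _ (hx true)).symm]
          ring
        rw [Finset.prod_congr rfl fun r _ => h1 r, Finset.prod_mul_distrib, Finset.prod_const,
          Finset.card_univ, Fintype.card_fin,
          show x.1.2 J = p false x (c false) * ratio p c x ⟨false, J⟩ from
            (mul_div_cancel₀ _ (hx false)).symm]
        ring }
  obtain ⟨C₁, hC₁⟩ := m.habs_le
  obtain ⟨C₂, hC₂⟩ := m.le_habs (fun c => {z | ∀ i, z ⟨i, c i⟩ = 1})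
    (fun c => IsAlgSet.forall_ fun i => IsAlgSet.of_eq (IsPoly.coord _) (IsPoly.const 1))
    (fun c x hx i => div_self (hx i))
    (fun c z hz => by
      have h1 : (fun r : Fin (X.d a) => z ⟨true, r⟩) ≠ 0 := fun h =>
        one_ne_zero ((hz true).symm.trans (congrFun h (c true)))
      have h2 : (fun J : Fin k → Fin (X.d b) => z ⟨false, J⟩) ≠ 0 := fun h =>
        one_ne_zero ((hz false).symm.trans (congrFun h (c false)))
      obtain ⟨l, hl⟩ := Function.ne_iff.mp (tens_ne_zero (X.mulMat_injective h1) h2)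
      exact ⟨l, by rw [IsPoly.eval_poly]; exact hl⟩)
  refine ⟨max C₁ C₂, fun u z hu hz => ?_⟩
  let x : P := ⟨(u, z), hu, hz⟩
  have hp : ∀ i, p i x ≠ 0 := fun i => match i with | true => hu | false => hz
  have e : weight p m.deg x = k * habs u + habs z := by
    simp only [weight, Fintype.sum_bool, m, p, x, Nat.cast_one, one_mul]; rfl
  have h1 := hC₁ x hp (tens_ne_zero (X.mulMat_injective hu) hz)
  have h2 := hC₂ x hp
  rw [e] at h1 h2
  rw [abs_le]
  constructor
  · linarith [le_max_right C₁ C₂]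
  · linarith [le_max_left C₁ C₂]

theorem pl_mul {a b k : ℕ} {u : F} {w : Fin k → F} (hu : u ∈ X.V a) (hw : ∀ j, w j ∈ X.V b) :
    X.pl (a + b) (fun j => u * w j) = tens k (X.mulMat a b (X.co a u)) (X.pl b w) := by
  rw [pl, pl, ← plucker_map]
  congr 1
  funext j l
  exact X.co_mul hu (hw j) l

/-- Multiplicativity of the height of a subspace under scaling by an element. -/
theorem hSub_scale (a b k : ℕ) : ∃ C, ∀ u ∈ X.V a, u ≠ 0 → ∀ W : Submodule Qb F, W ≤ X.V b →
    Module.finrank Qb W = k →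
    |X.hSub (a + b) (W.map (LinearMap.mulLeft Qb u)) - (k * X.hv a u + X.hSub b W)| ≤ C := by
  obtain ⟨C, hC⟩ := X.action_bounds a b k
  refine ⟨C, fun u hu hu0 W hW hk => ?_⟩
  haveI := X.finiteDimensional_of_le hW
  let bs := Module.finBasisOfFinrankEq Qb W hk
  set w : Fin k → F := fun j => (bs j : F) with hw
  have hind : LinearIndependent Qb w :=
    bs.linearIndependent.map' (Submodule.subtype _) (Submodule.ker_subtype _)
  have hspan : Submodule.span Qb (Set.range w) = W := by
    rw [show Set.range w = W.subtype '' Set.range bs from by rw [← Set.range_comp]; rfl,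
      Submodule.span_image, bs.span_eq, Submodule.map_top, Submodule.range_subtype]
  have hmem : ∀ j, w j ∈ X.V b := fun j => hW (bs j).2
  have hinj : LinearMap.ker (LinearMap.mulLeft Qb u) = ⊥ :=
    LinearMap.ker_eq_bot.mpr (mul_right_injective₀ hu0)
  have hind' : LinearIndependent Qb (fun j => u * w j) := hind.map' _ hinj
  have hspan' : Submodule.span Qb (Set.range fun j => u * w j) =
      W.map (LinearMap.mulLeft Qb u) := by
    rw [← hspan, Submodule.map_span, ← Set.range_comp]; rfl
  have hle : W.map (LinearMap.mulLeft Qb u) ≤ X.V (a + b) := by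
    rintro _ ⟨f, hf, rfl⟩; exact X.mul_mem_V hu (hW hf)
  rw [X.hSub_eq _ hle hind' hspan', X.hSub_eq _ hW hind hspan, X.pl_mul hu hmem]
  exact hC _ _ (X.co_ne_zero hu hu0) (X.pl_ne_zero hmem hind)

/-- Heights of elements are additive under multiplication. -/
theorem hv_mul (a b : ℕ) : ∃ C, ∀ f ∈ X.V a, ∀ g ∈ X.V b, f ≠ 0 → g ≠ 0 →
    |X.hv (a + b) (f * g) - (X.hv a f + X.hv b g)| ≤ C := by
  obtain ⟨C, hC⟩ := X.action_bounds a b 1
  obtain ⟨C₁, hC₁⟩ := habs_linear_le
    (fun (J : Fin 1 → Fin (X.d (a + b))) l => if J 0 = l then (1 : Qb) else 0)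
  obtain ⟨C₂, hC₂⟩ := habs_linear_le
    (fun (J : Fin 1 → Fin (X.d b)) l => if J 0 = l then (1 : Qb) else 0)
  obtain ⟨C₃, hC₃⟩ := habs_linear_le
    (fun (l : Fin (X.d (a + b))) (J : Fin 1 → Fin (X.d (a + b))) =>
      if (fun _ => l) = J then (1 : Qb) else 0)
  obtain ⟨C₄, hC₄⟩ := habs_linear_le
    (fun (l : Fin (X.d b)) (J : Fin 1 → Fin (X.d b)) => if (fun _ => l) = J then (1 : Qb) else 0)
  refine ⟨C + |C₁| + |C₂| + |C₃| + |C₄|, fun f hf g hg hf0 hg0 => ?_⟩
  have h := hC _ (X.pl b fun _ : Fin 1 => g) (X.co_ne_zero hf hf0)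
    (X.pl_ne_zero (fun _ => hg) (LinearIndependent.of_subsingleton 0 hg0))
  rw [← X.pl_mul hf (fun _ => hg)] at h
  have e : ∀ (m : ℕ) (f : F) (J : Fin 1 → Fin (X.d m)), X.pl m (fun _ => f) J = X.co m f (J 0) :=
    fun m f J => by simp [pl, plucker]
  have e1 := hC₁ (X.co (a + b) (f * g))
  have e2 := hC₂ (X.co b g)
  have e3 := hC₃ (X.pl (a + b) fun _ : Fin 1 => f * g)
  have e4 := hC₄ (X.pl b fun _ : Fin 1 => g)
  simp only [ite_mul, one_mul, zero_mul, Finset.sum_ite_eq, Finset.mem_univ, if_true, e] at e1 e2 e3 e4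
  rw [← funext (e (a + b) (f * g))] at e1
  rw [← funext (e b g)] at e2
  simp only [hv]
  rw [abs_le] at h ⊢
  simp only [Nat.cast_one, one_mul] at h
  have := le_abs_self C₁; have := le_abs_self C₂; have := le_abs_self C₃; have := le_abs_self C₄
  constructor <;>
    linarith [abs_nonneg C₁, abs_nonneg C₂, abs_nonneg C₃, abs_nonneg C₄]

end Coords

end Fermat.Agent.MordellWeil
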