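import Fermat.Agent.MordellWeil.Additivity

/-!
# Scaling by a section and additivity of increments without restrictions
-/

set_option autoImplicit false
set_option linter.style.haveILetI false
set_option linter.unusedSectionVars false

noncomputable section

open AlgebraicCurve Fermat.Agent.FF

namespace Fermat.Agent.MordellWeil

variable {F : Type*} [Field F] [Algebra Qb F] [IsFunctionField Qb F]

namespace Coords

variable (X : Coords F)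

/-- Multiplying `L(m • pt - G)` by a section. -/
theorem map_mul_W {N m : ℕ} {u : F} (hu : u ≠ 0) (G : Divisor Qb F) :
    (X.W m G).map (LinearMap.mulLeft Qb u) = X.W (N + m) (G + X.zdiv N u) := by
  ext f
  constructor
  · rintro ⟨g, hg, rfl⟩
    rcases eq_or_ne g 0 with rfl | hg0
    · simp
    refine mem_L_of_le fun v => ?_
    have := neg_le_ord hg hg0 v
    rw [LinearMap.mulLeft_apply, v.ord_mul hu hg0]
    simp only [zdiv, Nat.cast_add, Finsupp.single_add, Finsupp.sub_apply, Finsupp.add_apply,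
      div_apply] at this ⊢
    omega
  · intro hf
    rcases eq_or_ne f 0 with rfl | hf0
    · exact zero_mem _
    refine ⟨f / u, mem_L_of_le fun v => ?_, by simp [mul_div_cancel₀ _ hu]⟩
    have := neg_le_ord hf hf0 v
    rw [FF.ord_div v hf0 hu]
    simp only [zdiv, Nat.cast_add, Finsupp.single_add, Finsupp.sub_apply, Finsupp.add_apply,
      div_apply] at this ⊢
    omega

theorem hW_scale (N m n : ℕ) (hm : n + bnd Qb F ≤ m) :
    ∃ C, ∀ (u : F) (G : Divisor Qb F), u ∈ X.V N → u ≠ 0 → 0 ≤ G → Divisor.degree G = n →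
      |X.hW (N + m) (G + X.zdiv N u) - ((X.kdim m n : ℝ) * X.hv N u + X.hW m G)| ≤ C := by
  obtain ⟨C, hC⟩ := X.hSub_scale N m (X.kdim m n)
  refine ⟨C, fun u G hu hu0 hG hn => ?_⟩
  rw [hW, ← X.map_mul_W hu0]
  exact hC u hu hu0 _ (X.W_le hG) (X.finrank_W hn hm)

theorem incr_scale (N m n : ℕ) (hm : n + 1 + bnd Qb F ≤ m) :
    ∃ C, ∀ (u : F) (G : Divisor Qb F) (Q : Place Qb F), u ∈ X.V N → u ≠ 0 → 0 ≤ G →
      Divisor.degree G = n →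
      |X.incr (N + m) (G + X.zdiv N u) Q - (X.incr m G Q - X.hv N u)| ≤ C := by
  obtain ⟨C₁, h₁⟩ := X.hW_scale N m n (by omega)
  obtain ⟨C₂, h₂⟩ := X.hW_scale N m (n + 1) (by omega)
  refine ⟨C₁ + C₂, fun u G Q hu hu0 hG hn => ?_⟩
  have e1 := abs_le.mp (h₁ u G hu hu0 hG hn)
  have e2 := abs_le.mp (h₂ u (G + Finsupp.single Q 1) hu hu0 (add_nonneg hG (single_nonneg Q))
    (by rw [map_add, hn, degree_single']; push_cast; rfl))
  rw [incr, incr, show G + X.zdiv N u + Finsupp.single Q 1 = G + Finsupp.single Q 1 + X.zdiv N u from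
    add_right_comm _ _ _]
  rw [show (X.kdim m n : ℝ) = X.kdim m (n + 1) + 1 by
    rw [X.kdim_succ (by omega)]; push_cast; rfl] at e1
  rw [abs_le]
  constructor <;> linarith [e1.1, e1.2, e2.1, e2.2]

/-- An equivalent effective divisor of degree `bnd + 1` avoiding a given place, together with
sections witnessing the equivalence. -/
theorem exists_move {n : ℕ} {D : Divisor Qb F} (hD : 0 ≤ D) (hn : Divisor.degree D = n)
    (Q : Place Qb F) :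
    ∃ (D₁ : Divisor Qb F) (u w : F), 0 ≤ D₁ ∧ Divisor.degree D₁ = ((bnd Qb F + 1 : ℕ) : ℤ) ∧
      D₁ Q = 0 ∧
      u ∈ X.V (n + (bnd Qb F + 1)) ∧ u ≠ 0 ∧
      w ∈ X.V (bnd Qb F + 1 + (bnd Qb F + 1)) ∧ w ≠ 0 ∧
      D + X.zdiv (bnd Qb F + 1 + (bnd Qb F + 1)) w = D₁ + X.zdiv (n + (bnd Qb F + 1)) u := by
  obtain ⟨x, rfl⟩ := PLevel.exists_pt_of_divisor X (m := 0) hD hn
  set G := Finsupp.single X.pt (((bnd Qb F + 1) + (bnd Qb F + 1) : ℕ) : ℤ) - x.D' with hG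
  have hdegG : Divisor.degree G = ((bnd Qb F + 1 : ℕ) : ℤ) := by
    rw [hG, map_sub, degree_single', x.D'_degree]; push_cast; ring
  obtain ⟨w, hw, hw0, hwQ⟩ := exists_exact (D := G) (by rw [hdegG]; omega) Q
  refine ⟨X.zdiv (bnd Qb F + 1 + (bnd Qb F + 1)) w - x.D', x.u, w, ?_, ?_, ?_, x.u_mem, x.u_ne,
    X.W_le x.D'_nonneg hw, hw0, ?_⟩
  · refine sub_nonneg.mpr (Finsupp.le_def.mpr fun v => ?_)
    have := neg_le_ord hw hw0 v
    simp only [hG, Finsupp.sub_apply] at this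
    simp only [zdiv, Finsupp.add_apply, div_apply]
    omega
  · rw [map_sub, X.degree_zdiv, x.D'_degree]; push_cast; ring
  · simp only [hG, Finsupp.sub_apply] at hwQ
    simp only [zdiv, Finsupp.sub_apply, Finsupp.add_apply, div_apply]
    omega
  · rw [x.u_div]; abel

theorem incr_add_left (m₁ n₁ m₂ n₂ : ℕ) (h₁ : n₁ + bnd Qb F + 2 ≤ m₁)
    (h₂ : n₂ + 3 * bnd Qb F + 2 ≤ m₂) (hgood₂ : n₂ = bnd Qb F + 1) :
    ∃ C, ∀ (D₁ D₂ : Divisor Qb F) (Q : Place Qb F), 0 ≤ D₁ → Divisor.degree D₁ = n₁ → 0 ≤ D₂ →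
      Divisor.degree D₂ = n₂ → D₂ Q = 0 →
      |X.incr (m₁ + m₂) (D₁ + D₂) Q - (X.incr m₁ D₁ Q + X.incr m₂ D₂ Q)| ≤ C := by
  set b := bnd Qb F + 1 with hb
  set m₁' := m₁ - n₁ + b with hm₁'
  obtain ⟨C₀, h₀⟩ := X.incr_add_of_disjoint m₁' b m₂ n₂ (by omega) h₂
  obtain ⟨C₁, e₁⟩ := X.incr_scale (b + b) m₁ n₁ (by omega)
  obtain ⟨C₂, e₂⟩ := X.incr_scale (n₁ + b) m₁' b (by omega)
  obtain ⟨C₃, e₃⟩ := X.incr_scale (b + b) (m₁ + m₂) (n₁ + n₂) (by omega)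
  obtain ⟨C₄, e₄⟩ := X.incr_scale (n₁ + b) (m₁' + m₂) (b + n₂) (by omega)
  refine ⟨C₀ + C₁ + C₂ + C₃ + C₄, fun D₁ D₂ Q hD₁ hn₁ hD₂ hn₂ hQ₂ => ?_⟩
  obtain ⟨E, u, w, hE, hEn, hEQ, hu, hu0, hw, hw0, he⟩ := X.exists_move hD₁ hn₁ Q
  have a0 := abs_le.mp (h₀ E D₂ Q hE hEn hD₂ hn₂ hEQ hQ₂)
  have a1 := abs_le.mp (e₁ w D₁ Q hw hw0 hD₁ hn₁)
  have a2 := abs_le.mp (e₂ u E Q hu hu0 hE hEn)
  have a3 := abs_le.mp (e₃ w (D₁ + D₂) Q hw hw0 (add_nonneg hD₁ hD₂)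
    (by rw [map_add, hn₁, hn₂]; push_cast; rfl))
  have a4 := abs_le.mp (e₄ u (E + D₂) Q hu hu0 (add_nonneg hE hD₂)
    (by rw [map_add, hEn, hn₂]; push_cast; rfl))
  rw [show b + b + m₁ = n₁ + b + m₁' by omega, he] at a1
  rw [show b + b + (m₁ + m₂) = n₁ + b + (m₁' + m₂) by omega,
    show D₁ + D₂ + X.zdiv (b + b) w = E + D₂ + X.zdiv (n₁ + b) u by
      rw [add_right_comm, he]; abel] at a3
  rw [abs_le]
  constructor <;> linarith [a0.1, a0.2, a1.1, a1.2, a2.1, a2.2, a3.1, a3.2, a4.1, a4.2]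

/-- Additivity of increments. -/
theorem incr_add (m₁ n₁ m₂ n₂ : ℕ) (h₁ : n₁ + 3 * bnd Qb F + 2 ≤ m₁)
    (h₂ : n₂ + 3 * bnd Qb F + 2 ≤ m₂) :
    ∃ C, ∀ (D₁ D₂ : Divisor Qb F) (Q : Place Qb F), 0 ≤ D₁ → Divisor.degree D₁ = n₁ → 0 ≤ D₂ →
      Divisor.degree D₂ = n₂ →
      |X.incr (m₁ + m₂) (D₁ + D₂) Q - (X.incr m₁ D₁ Q + X.incr m₂ D₂ Q)| ≤ C := by
  have := one_le_bnd (K := Qb) (F := F)
  set b := bnd Qb F + 1 with hb
  set m₂' := m₂ - n₂ + b with hm₂'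
  obtain ⟨C₀, h₀⟩ := X.incr_add_left m₁ n₁ m₂' b (by omega) (by omega) rfl
  obtain ⟨C₁, e₁⟩ := X.incr_scale (b + b) m₂ n₂ (by omega)
  obtain ⟨C₂, e₂⟩ := X.incr_scale (n₂ + b) m₂' b (by omega)
  obtain ⟨C₃, e₃⟩ := X.incr_scale (b + b) (m₁ + m₂) (n₁ + n₂) (by omega)
  obtain ⟨C₄, e₄⟩ := X.incr_scale (n₂ + b) (m₁ + m₂') (n₁ + b) (by omega)
  refine ⟨C₀ + C₁ + C₂ + C₃ + C₄, fun D₁ D₂ Q hD₁ hn₁ hD₂ hn₂ => ?_⟩
  obtain ⟨E, u, w, hE, hEn, hEQ, hu, hu0, hw, hw0, he⟩ := X.exists_move hD₂ hn₂ Q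
  have a0 := abs_le.mp (h₀ D₁ E Q hD₁ hn₁ hE hEn hEQ)
  have a1 := abs_le.mp (e₁ w D₂ Q hw hw0 hD₂ hn₂)
  have a2 := abs_le.mp (e₂ u E Q hu hu0 hE hEn)
  have a3 := abs_le.mp (e₃ w (D₁ + D₂) Q hw hw0 (add_nonneg hD₁ hD₂)
    (by rw [map_add, hn₁, hn₂]; push_cast; rfl))
  have a4 := abs_le.mp (e₄ u (D₁ + E) Q hu hu0 (add_nonneg hD₁ hE)
    (by rw [map_add, hn₁, hEn]; push_cast; rfl))
  rw [show b + b + m₂ = n₂ + b + m₂' by omega, he] at a1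
  rw [show b + b + (m₁ + m₂) = n₂ + b + (m₁ + m₂') by omega,
    show D₁ + D₂ + X.zdiv (b + b) w = D₁ + E + X.zdiv (n₂ + b) u by
      rw [add_assoc, he]; abel] at a3
  rw [abs_le]
  constructor <;> linarith [a0.1, a0.2, a1.1, a1.2, a2.1, a2.2, a3.1, a3.2, a4.1, a4.2]

end Coords

end Fermat.Agent.MordellWeil
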