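import Fermat.Agent.MordellWeil.Pairs

/-!
# The minors of a multiplication map
-/

set_option autoImplicit false
set_option linter.style.haveILetI false
set_option linter.unusedSectionVars false

noncomputable section

open AlgebraicCurve Fermat.Agent.FF
open scoped Pointwise

namespace Fermat.Agent.MordellWeil

theorem prod_pblk {M : Type*} [CommMonoid M] (f : PBlk → M) :
    ∏ b, f b = f .W * f .W' * f .U := by
  have h : (Finset.univ : Finset PBlk) = {PBlk.W, PBlk.W', PBlk.U} := by decide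
  rw [h, Finset.prod_insert (by decide), Finset.prod_insert (by decide), Finset.prod_singleton,
    mul_assoc]

theorem sum_pblk {M : Type*} [AddCommMonoid M] (f : PBlk → M) :
    ∑ b, f b = f .W + f .W' + f .U := by
  have h : (Finset.univ : Finset PBlk) = {PBlk.W, PBlk.W', PBlk.U} := by decide
  rw [h, Finset.sum_insert (by decide), Finset.sum_insert (by decide), Finset.sum_singleton,
    add_assoc]

theorem uvec_smul {α : Type*} [DecidableEq α] {k : ℕ} (c : Qb) (Ω : (Fin k → α) → Qb)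
    (a : (Fin k → α) × Fin k) : uvec (c • Ω) a = c • uvec Ω a := rfl

variable {F : Type*} [Field F] [Algebra Qb F] [IsFunctionField Qb F]

namespace Coords

variable (X : Coords F)

theorem el_smul (m : ℕ) (c : Qb) (v : Fin (X.d m) → Qb) : X.el m (c • v) = c • X.el m v := by
  refine X.co_injOn (X.el_mem _ _) (Submodule.smul_mem _ _ (X.el_mem _ _)) ?_
  rw [co_el, X.co_smul _ (X.el_mem _ _), co_el]

/-- Index set of the update vectors of `L(m • pt - D)`, `deg D = n`. -/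
abbrev UIx (m n : ℕ) : Type := (Fin (X.kdim m n) → Fin (X.d m)) × Fin (X.kdim m n)

theorem el_uvec_mem {m k : ℕ} {w : Fin k → F} (hw : ∀ j, w j ∈ X.V m)
    (a : (Fin k → Fin (X.d m)) × Fin k) :
    X.el m (uvec (X.pl m w) a) ∈ Submodule.span Qb (Set.range w) := by
  obtain ⟨c, hc⟩ := (Submodule.mem_span_range_iff_exists_fun Qb).mp
    (uvec_mem_span (fun i => X.co m (w i)) a)
  have e : X.el m (uvec (X.pl m w) a) = ∑ i, c i • w i := by
    refine X.co_injOn (X.el_mem _ _) (sum_mem fun i _ => Submodule.smul_mem _ _ (hw i)) ?_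
    rw [co_el, X.co_sum _ fun i _ => Submodule.smul_mem _ _ (hw i)]
    exact hc.symm.trans (Finset.sum_congr rfl fun i _ => (X.co_smul _ (hw i)).symm)
  rw [e]
  exact sum_mem fun i _ => Submodule.smul_mem _ _ (Submodule.subset_span ⟨i, rfl⟩)

/-- Coordinates of a product of two update vectors. -/
def prodVec {m₁ m₂ k₁ k₂ : ℕ} (Ω₁ : (Fin k₁ → Fin (X.d m₁)) → Qb)
    (Ω₂ : (Fin k₂ → Fin (X.d m₂)) → Qb)
    (ab : ((Fin k₁ → Fin (X.d m₁)) × Fin k₁) × ((Fin k₂ → Fin (X.d m₂)) × Fin k₂)) :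
    Fin (X.d (m₁ + m₂)) → Qb :=
  X.co (m₁ + m₂) (X.el m₁ (uvec Ω₁ ab.1) * X.el m₂ (uvec Ω₂ ab.2))

theorem prodVec_smul {m₁ m₂ k₁ k₂ : ℕ} (a b : Qb) (Ω₁ : (Fin k₁ → Fin (X.d m₁)) → Qb)
    (Ω₂ : (Fin k₂ → Fin (X.d m₂)) → Qb) (ab) :
    X.prodVec (a • Ω₁) (b • Ω₂) ab = (a * b) • X.prodVec Ω₁ Ω₂ ab := by
  rw [prodVec, prodVec, uvec_smul, uvec_smul, el_smul, el_smul, smul_mul_smul_comm,
    X.co_smul _ (X.mul_mem_V (X.el_mem _ _) (X.el_mem _ _))]

theorem plucker_smul {α : Type*} {k : ℕ} (c : Qb) (w : Fin k → α → Qb) (J : Fin k → α) :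
    plucker (fun j => c • w j) J = c ^ k * plucker w J := by
  rw [plucker, plucker,
    show (Matrix.of fun r j => (c • w j) (J r) : Matrix (Fin k) (Fin k) Qb) =
      c • Matrix.of fun r j => w j (J r) from rfl, Matrix.det_smul, Fintype.card_fin]

/-- The minors of the multiplication map. -/
def minorsY {m₁ m₂ k₁ k₂ : ℕ} (k : ℕ) (Ω₁ : (Fin k₁ → Fin (X.d m₁)) → Qb)
    (Ω₂ : (Fin k₂ → Fin (X.d m₂)) → Qb)
    (SI : (Fin k → ((Fin k₁ → Fin (X.d m₁)) × Fin k₁) × ((Fin k₂ → Fin (X.d m₂)) × Fin k₂)) ×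
      (Fin k → Fin (X.d (m₁ + m₂)))) : Qb :=
  plucker (fun c => X.prodVec Ω₁ Ω₂ (SI.1 c)) SI.2

theorem minorsY_smul {m₁ m₂ k₁ k₂ : ℕ} (k : ℕ) (a b : Qb)
    (Ω₁ : (Fin k₁ → Fin (X.d m₁)) → Qb) (Ω₂ : (Fin k₂ → Fin (X.d m₂)) → Qb) (SI) :
    X.minorsY k (a • Ω₁) (b • Ω₂) SI = (a * b) ^ k * X.minorsY k Ω₁ Ω₂ SI := by
  rw [minorsY, minorsY, ← plucker_smul]
  simp only [prodVec_smul]

theorem exists_subfamily {E α : Type*} [AddCommGroup E] [Module Qb E] [Finite α] (f : α → E)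
    {k : ℕ} (h : Module.finrank Qb (Submodule.span Qb (Set.range f)) = k) :
    ∃ s : Fin k → α, LinearIndependent Qb (f ∘ s) := by
  classical
  obtain ⟨b, hb, hspan, hind⟩ := exists_linearIndependent Qb (Set.range f)
  have hbfin : b.Finite := (Set.finite_range f).subset hb
  haveI := hbfin.fintype
  have hcard : Fintype.card b = k := by
    rw [← h, ← hspan, finrank_span_set_eq_card hind, Set.toFinset_card]
  let e : Fin k ≃ b := (Fintype.equivFinOfCardEq hcard).symm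
  choose s hs using fun j => hb (e j).2
  refine ⟨s, ?_⟩
  have : f ∘ s = (fun x : b => (x : E)) ∘ e := funext hs
  rw [this]
  exact hind.comp _ e.injective

/-- Lower bound for the minors of multiplication. -/
theorem le_habs_minorsY (L₁ L₂ : PLevel) (h₁ : L₁.Good F) (h₂ : L₂.Good F)
    (h₂' : L₂.n + 3 * bnd Qb F + 2 ≤ L₂.m) :
    ∃ C, ∀ (x₁ : PLevel.Pt X L₁) (x₂ : PLevel.Pt X L₂),
      X.minorsY (X.kdim (L₁.m + L₂.m) (L₁.n + L₂.n)) (L₁.vec X .W x₁) (L₂.vec X .W x₂) ≠ 0 ∧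
      (X.kdim (L₁.m + L₂.m) (L₁.n + L₂.n) : ℝ) * (habs (L₁.vec X .W x₁) + habs (L₂.vec X .W x₂)) ≤
        habs (X.minorsY (X.kdim (L₁.m + L₂.m) (L₁.n + L₂.n)) (L₁.vec X .W x₁) (L₂.vec X .W x₂)) +
          C := by
  classical
  set k := X.kdim (L₁.m + L₂.m) (L₁.n + L₂.n) with hk
  let σ : Bool × PBlk → Type := fun b => (bif b.1 then L₁ else L₂).σ X b.2
  haveI : ∀ b, Finite (σ b) := fun b => (bif b.1 then L₁ else L₂).finite_σ X b.2
  let p : ∀ b, PLevel.Pt X L₁ × PLevel.Pt X L₂ → σ b → Qb := fun b =>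
    match b with
    | (true, i) => fun x => L₁.vec X i x.1
    | (false, i) => fun x => L₂.vec X i x.2
  let G : ((Σ b, σ b) → Qb) → _ → Qb := fun z =>
    X.minorsY k (fun J => z ⟨(true, .W), J⟩) (fun J => z ⟨(false, .W), J⟩)
  have hG : ∀ SI, IsPoly fun z => G z SI := fun SI => by
    refine IsPoly.plucker (fun j x => ?_) _
    exact ((X.isPolyElt_el fun x => IsPoly.coord _).mul X
      (X.isPolyElt_el fun x => IsPoly.coord _)).2 x
  let M : ChartMap p _ :=
    { y := fun SI x => X.minorsY k (L₁.vec X .W x.1) (L₂.vec X .W x.2) SI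
      deg := fun b => if b.2 = .W then k else 0
      F := fun _ SI => (hG SI).poly
      eq := fun c SI x hx => by
        rw [IsPoly.eval_poly]
        have e1 : L₁.vec X .W x.1 =
            p (true, .W) x (c (true, .W)) • fun J => ratio p c x ⟨(true, .W), J⟩ := by
          funext J; exact (mul_div_cancel₀ _ (hx (true, .W))).symm
        have e2 : L₂.vec X .W x.2 =
            p (false, .W) x (c (false, .W)) • fun J => ratio p c x ⟨(false, .W), J⟩ := by
          funext J; exact (mul_div_cancel₀ _ (hx (false, .W))).symm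
        simp only [G]
        refine (congrArg₂ (fun u v => X.minorsY k u v SI) e1 e2).trans
          ((X.minorsY_smul k _ _ _ _ SI).trans ?_)
        congr 1
        rw [chartMono, Fintype.prod_prod_type, Fintype.prod_bool, prod_pblk, prod_pblk]
        simp [mul_pow] }
  let Z : (∀ b, σ b) → Set ((Σ b, σ b) → Qb) := fun c =>
    {z | L₁.Cond X (fun i => c (true, i)) (fun a => z ⟨(true, a.1), a.2⟩) ∧
      L₂.Cond X (fun i => c (false, i)) (fun a => z ⟨(false, a.1), a.2⟩)}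
  have hZ : ∀ c, IsAlgSet (Z c) := fun c =>
    IsAlgSet.and (IsAlgSet.preimage (L₁.isAlgSet_cond X h₁ fun i => c (true, i))
      (g := fun a (z : (Σ b, σ b) → Qb) => z ⟨(true, a.1), a.2⟩) fun a => IsPoly.coord _)
      (IsAlgSet.preimage (L₂.isAlgSet_cond X h₂ fun i => c (false, i))
      (g := fun a (z : (Σ b, σ b) → Qb) => z ⟨(false, a.1), a.2⟩) fun a => IsPoly.coord _)
  have hne : ∀ c, ∀ z ∈ Z c, ∃ SI, G z SI ≠ 0 := by
    intro c z hz
    obtain ⟨x₁, e₁, -, -⟩ := PLevel.exists_pt h₁ hz.1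
    obtain ⟨x₂, e₂, -, -⟩ := PLevel.exists_pt h₂ hz.2
    have hmul : X.frameSpan L₁.m (c (true, .W)) (fun J => z ⟨(true, .W), J⟩) *
        X.frameSpan L₂.m (c (false, .W)) (fun J => z ⟨(false, .W), J⟩) =
        X.W (L₁.m + L₂.m) (x₁.D + x₂.D) := by
      rw [show X.frameSpan L₁.m (c (true, .W)) (fun J => z ⟨(true, .W), J⟩) = _ from e₁,
        show X.frameSpan L₂.m (c (false, .W)) (fun J => z ⟨(false, .W), J⟩) = _ from e₂]
      exact X.W_mul x₁.D_degree x₂.D_degree (by have := h₁.1; omega) h₂'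
    have hrk : Module.finrank Qb (X.W (L₁.m + L₂.m) (x₁.D + x₂.D)) = k :=
      X.finrank_W (by rw [map_add, x₁.D_degree, x₂.D_degree]; push_cast; rfl)
        (by have := h₁.1; have := h₂.1; omega)
    rw [← hmul, Coords.frameSpan, Coords.frameSpan, Submodule.span_mul_span] at hrk
    let f : Fin (X.kdim L₁.m L₁.n) × Fin (X.kdim L₂.m L₂.n) → F := fun ij =>
      X.el L₁.m (uvec (fun J => z ⟨(true, .W), J⟩) (c (true, .W), ij.1)) *
        X.el L₂.m (uvec (fun J => z ⟨(false, .W), J⟩) (c (false, .W), ij.2))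
    have hrange : Set.range f =
        (Set.range fun i => X.el L₁.m (uvec (fun J => z ⟨(true, .W), J⟩) (c (true, .W), i))) *
          Set.range fun i => X.el L₂.m (uvec (fun J => z ⟨(false, .W), J⟩) (c (false, .W), i)) := by
      ext y
      constructor
      · rintro ⟨⟨i, j⟩, rfl⟩
        exact Set.mul_mem_mul ⟨i, rfl⟩ ⟨j, rfl⟩
      · rintro ⟨_, ⟨i, rfl⟩, _, ⟨j, rfl⟩, rfl⟩
        exact ⟨(i, j), rfl⟩
    obtain ⟨s, hs⟩ := exists_subfamily f
      ((congrArg (fun t => Module.finrank Qb (Submodule.span Qb t)) hrange).trans hrk)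
    have hmem : ∀ j, (f ∘ s) j ∈ X.V (L₁.m + L₂.m) := fun j =>
      X.mul_mem_V (X.el_mem _ _) (X.el_mem _ _)
    obtain ⟨I, hI⟩ := Function.ne_iff.mp (X.pl_ne_zero hmem hs)
    exact ⟨(fun j => ((c (true, .W), (s j).1), (c (false, .W), (s j).2)), I), hI⟩
  have hpt : ∀ c x, (∀ b, p b x (c b) ≠ 0) → ratio p c x ∈ Z c := fun c x hc =>
    ⟨(PLevel.cond_ratio h₁ _ x.1 fun i => hc (true, i)).1,
      (PLevel.cond_ratio h₂ _ x.2 fun i => hc (false, i)).1⟩
  obtain ⟨C, hC⟩ := M.le_habs Z hZ hpt fun c z hz => by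
    obtain ⟨SI, hSI⟩ := hne c z hz
    exact ⟨SI, by rw [IsPoly.eval_poly]; exact hSI⟩
  refine ⟨C, fun x₁ x₂ => ?_⟩
  have hp : ∀ b, p b (x₁, x₂) ≠ 0 := fun b => match b with
    | (true, i) => PLevel.vec_ne_zero h₁ i x₁
    | (false, i) => PLevel.vec_ne_zero h₂ i x₂
  refine ⟨fun h0 => ?_, ?_⟩
  · choose c hc using fun b => Function.ne_iff.mp (hp b)
    obtain ⟨SI, hSI⟩ := hne c (ratio p c (x₁, x₂)) (hpt c _ hc)
    have h := M.eq c SI (x₁, x₂) hc
    rw [IsPoly.eval_poly] at h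
    have : chartMono p c M.deg (x₁, x₂) ≠ 0 :=
      Finset.prod_ne_zero_iff.mpr fun b _ => pow_ne_zero _ (hc b)
    exact (mul_ne_zero this hSI) (h.symm.trans (congrFun h0 SI))
  · have h := hC (x₁, x₂) hp
    have e : weight p M.deg (x₁, x₂) =
        (k : ℝ) * (habs (L₁.vec X .W x₁) + habs (L₂.vec X .W x₂)) := by
      rw [weight, Fintype.sum_prod_type, Fintype.sum_bool, sum_pblk, sum_pblk]
      simp [M, p]
      ring
    rw [e] at h
    exact h

end Coords

end Fermat.Agent.MordellWeil
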