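import Fermat.Agent.Mazur.Eisenstein.Unram
import Fermat.Agent.ClassField.KummerPlaces
import Mathlib.NumberTheory.NumberField.ClassNumber
import Mathlib.NumberTheory.NumberField.Units.DirichletTheorem
import Mathlib.GroupTheory.FiniteAbelian.Basic

/-!
# Finitely many square classes with even valuation outside a finite set
-/

set_option autoImplicit false
set_option linter.style.haveILetI false
set_option linter.unusedSectionVars false

noncomputable section

open NumberField UniqueFactorizationMonoid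
open scoped nonZeroDivisors Pointwise

namespace Fermat.Agent.MordellWeil

open Fermat.Agent.Arith
open Fermat.Agent.Mazur.Eisenstein (ordAt ordAt_mul ordAt_pow ordAt_prime ordAt_eq_zero_iff
  ordAt_nonneg_of_mem isUnitAt_of_notMem_nonunits exists_int_ordAt)

theorem finite_units_mod_sq (K : Type*) [Field K] [NumberField K] :
    ∃ U : Finset (𝓞 K)ˣ, ∀ u, ∃ u₀ ∈ U, ∃ w, u = u₀ * w ^ 2 := by
  classical
  let N : Submodule ℤ (Additive (𝓞 K)ˣ) :=
    LinearMap.range (LinearMap.lsmul ℤ (Additive (𝓞 K)ˣ) 2)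
  haveI : Finite (Additive (𝓞 K)ˣ ⧸ N) := Module.finite_of_fg_torsion _ fun {q} => by
    obtain ⟨a, rfl⟩ := Submodule.Quotient.mk_surjective N q
    refine ⟨⟨2, mem_nonZeroDivisors_of_ne_zero two_ne_zero⟩, ?_⟩
    change (2 : ℤ) • Submodule.Quotient.mk (p := N) a = 0
    rw [← Submodule.Quotient.mk_smul, Submodule.Quotient.mk_eq_zero]
    exact ⟨a, rfl⟩
  haveI := Fintype.ofFinite (Additive (𝓞 K)ˣ ⧸ N)
  refine ⟨Finset.univ.image fun q : Additive (𝓞 K)ˣ ⧸ N => Additive.toMul q.out, fun u => ?_⟩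
  refine ⟨_, Finset.mem_image_of_mem _
    (Finset.mem_univ (Submodule.Quotient.mk (Additive.ofMul u))), ?_⟩
  obtain ⟨w, hw⟩ := (Submodule.Quotient.eq N).mp (Submodule.Quotient.mk_out
    (Submodule.Quotient.mk (p := N) (Additive.ofMul u))).symm
  refine ⟨Additive.toMul w, ?_⟩
  change (2 : ℤ) • w = _ at hw
  rw [eq_sub_iff_add_eq, two_zsmul] at hw
  have := congrArg Additive.toMul hw
  simp only [toMul_add, toMul_ofMul] at this
  rw [pow_two, mul_comm]
  exact this.symm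

variable {K : IntermediateField ℚ QBar} [NumberField K]

theorem coe_int_ne_zero {x : 𝓞 K} (hx : x ≠ 0) : ((x : K) : QBar) ≠ 0 := fun h =>
  hx (RingOfIntegers.coe_injective (Subtype.ext (by simpa using h)))

theorem ordAt_eq_zero_of_notMem {q : ℕ} {A : ValuationSubring QBar} (hA : A.LiesOverPrime q)
    (hq : q.Prime) {x : 𝓞 K} (hx0 : x ≠ 0) (hx : x ∉ ClassField.centreAt A K) :
    ordAt A q ((x : K) : QBar) = 0 := by
  rw [ClassField.mem_centreAt] at hx
  exact (ordAt_eq_zero_iff hA hq (coe_int_ne_zero hx0)).mpr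
    (isUnitAt_of_notMem_nonunits (mem_of_isIntegral A (ClassField.embInt K x).2) hx)

/-- Valuations at a place in terms of a uniformiser of its centre. -/
theorem ordAt_eq_mul {q : ℕ} {A : ValuationSubring QBar} (hA : A.LiesOverPrime q) (hq : q.Prime)
    {π : 𝓞 K} (hπ : π ∈ ClassField.centreAt A K) (hπ2 : π ∉ ClassField.centreAt A K ^ 2)
    {x : 𝓞 K} (hx : x ≠ 0) {n : ℕ} (hn : ClassField.centreAt A K ^ n ∣ Ideal.span {x})
    (hn' : ¬ ClassField.centreAt A K ^ (n + 1) ∣ Ideal.span {x}) :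
    ordAt A q ((x : K) : QBar) = n * ordAt A q ((π : K) : QBar) := by
  set P := ClassField.centreAt A K with hP
  have hP0 : P ≠ ⊥ := ClassField.centreAt_ne_bot hA hq
  have hPp : Prime P := Ideal.prime_of_isPrime hP0 inferInstance
  obtain ⟨J, hJ⟩ := Ideal.dvd_iff_le.mpr ((Ideal.span_singleton_le_iff_mem _).mpr hπ)
  have hJP : ¬ P ∣ J := fun h => hπ2 <| (Ideal.span_singleton_le_iff_mem _).mp
    (Ideal.dvd_iff_le.mp (by rw [pow_two, hJ]; exact mul_dvd_mul_left P h))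
  have hJn : ¬ P ∣ J ^ n := fun h => hJP (hPp.dvd_of_dvd_pow h)
  obtain ⟨s, hs, hsP⟩ : ∃ s ∈ J ^ n, s ∉ P := by
    by_contra hno
    push Not at hno
    exact hJn (Ideal.dvd_iff_le.mpr hno)
  obtain ⟨I, hI⟩ := hn
  have hmem : x * s ∈ Ideal.span {π ^ n} := by
    have h1 : x * s ∈ Ideal.span {x} * J ^ n :=
      Ideal.mul_mem_mul (Ideal.mem_span_singleton_self x) hs
    rw [hI, mul_assoc, mul_comm I, ← mul_assoc, ← mul_pow, ← hJ, Ideal.span_singleton_pow] at h1
    exact (Ideal.mul_le_left (I := Ideal.span {π ^ n}) (J := I)) h1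
  obtain ⟨t, ht⟩ := Ideal.mem_span_singleton.mp hmem
  have hπ0 : π ≠ 0 := fun h => hπ2 (h ▸ Ideal.zero_mem _)
  have hs0 : s ≠ 0 := fun h => hsP (h ▸ Ideal.zero_mem _)
  have ht0 : t ≠ 0 := fun h => mul_ne_zero hx hs0 (by rw [ht, h, mul_zero])
  have htP : t ∉ P := fun h => by
    refine hn' (hPp.pow_dvd_of_dvd_mul_right _ (b := Ideal.span {s}) ?_ ?_)
    · exact fun h => hsP (Ideal.dvd_span_singleton.mp h)
    · rw [Ideal.span_singleton_mul_span_singleton, Ideal.dvd_span_singleton, ht, pow_succ]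
      exact Ideal.mul_mem_mul (Ideal.pow_mem_pow hπ n) h
  have e := congrArg (fun y : 𝓞 K => ordAt A q ((y : K) : QBar)) ht
  simp only [map_mul, map_pow, MulMemClass.coe_mul, SubmonoidClass.coe_pow] at e
  rwa [ordAt_mul hA hq (coe_int_ne_zero hx) (coe_int_ne_zero hs0),
    ordAt_eq_zero_of_notMem hA hq hs0 hsP, add_zero,
    ordAt_mul hA hq (pow_ne_zero _ (coe_int_ne_zero hπ0)) (coe_int_ne_zero ht0),
    ordAt_eq_zero_of_notMem hA hq ht0 htP, add_zero,
    ordAt_pow hA hq (coe_int_ne_zero hπ0)] at e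

variable (K) in
/-- `K` is unramified outside `d`. -/
def UnramifiedOutside (d : ℕ) : Prop :=
  ∀ (p : ℕ) (A : ValuationSubring QBar), p.Prime → A.LiesOverPrime p → ¬ p ∣ d →
    ∀ σ ∈ A.inertiaSubgroupIn ℚ, ∀ x ∈ K, σ x = x

/-- Valuations of `x` outside `d` are even. -/
def EvenOutside (d : ℕ) (x : QBar) : Prop :=
  ∀ (p : ℕ) (A : ValuationSubring QBar), p.Prime → A.LiesOverPrime p → ¬ p ∣ d →
    ∃ k : ℤ, ordAt A p x = 2 * k

theorem exists_pow_dvd_not_succ {P I : Ideal (𝓞 K)} (hP : Prime P) (hI : I ≠ 0) :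
    ∃ n, P ^ n ∣ I ∧ ¬ P ^ (n + 1) ∣ I := by
  have h := FiniteMultiplicity.of_prime_left hP hI
  exact ⟨multiplicity P I, pow_multiplicity_dvd P I, h.not_pow_dvd_of_multiplicity_lt (by omega)⟩

theorem even_count [IsGalois ℚ K] {d : ℕ} (hunr : UnramifiedOutside K d) {a : 𝓞 K} (ha : a ≠ 0)
    (hev : EvenOutside d ((a : K) : QBar)) {P : Ideal (𝓞 K)} [P.IsPrime] (hP : P ≠ ⊥)
    (hd : (d : 𝓞 K) ∉ P) {n : ℕ} (hn : P ^ n ∣ Ideal.span {a})
    (hn' : ¬ P ^ (n + 1) ∣ Ideal.span {a}) : Even n := by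
  obtain ⟨q, hq, hqP, A, hA, rfl⟩ := ClassField.exists_centreAt_eq K hP
  set P := ClassField.centreAt A K
  have hqd : ¬ q ∣ d := fun ⟨c, hc⟩ => hd (by
    rw [hc, Nat.cast_mul]; exact Ideal.mul_mem_right _ _ hqP)
  obtain ⟨π, hπ, hπ2⟩ : ∃ π ∈ P, π ∉ P ^ 2 := by
    have h := (Ideal.pow_lt_self P hP Ideal.IsPrime.ne_top' 2 le_rfl)
    obtain ⟨π, h1, h2⟩ := SetLike.exists_of_lt h
    exact ⟨π, h1, h2⟩
  have hπ0 : π ≠ 0 := fun h => hπ2 (h ▸ Ideal.zero_mem _)
  obtain ⟨e, he⟩ := exists_int_ordAt hA hq (coe_int_ne_zero hπ0)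
    fun σ hσ => hunr q A hq hA hqd σ hσ _ (π : K).2
  have hq0 : (q : 𝓞 K) ≠ 0 := by exact_mod_cast hq.ne_zero
  obtain ⟨m, hm, hm'⟩ := exists_pow_dvd_not_succ (Ideal.prime_of_isPrime hP inferInstance)
    (show Ideal.span {(q : 𝓞 K)} ≠ 0 by simpa using hq.ne_zero)
  have h1 := ordAt_eq_mul hA hq hπ hπ2 hq0 hm hm'
  rw [show (((q : 𝓞 K) : K) : QBar) = (q : QBar) by simp, ordAt_prime hA hq, he] at h1
  have he1 : e = 1 := by
    have hπA : ((π : K) : QBar) ∈ A := mem_of_isIntegral A (ClassField.embInt K π).2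
    have hnn := ordAt_nonneg_of_mem hA hq (coe_int_ne_zero hπ0) hπA
    rw [he] at hnn
    have h2 : (1 : ℤ) = (m : ℤ) * e := by exact_mod_cast h1
    exact Int.eq_one_of_mul_eq_one_left (by exact_mod_cast hnn) h2.symm
  obtain ⟨k, hk⟩ := hev q A hq hA hqd
  rw [ordAt_eq_mul hA hq hπ hπ2 ha hn hn', he, he1, Int.cast_one, mul_one] at hk
  have h3 : (n : ℤ) = 2 * k := by exact_mod_cast hk
  exact ⟨k.natAbs, by omega⟩

theorem exists_sq_mul [IsGalois ℚ K] {d : ℕ} (hd : d ≠ 0) (hunr : UnramifiedOutside K d)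
    {a : 𝓞 K} (ha : a ≠ 0) (hev : EvenOutside d ((a : K) : QBar)) :
    ∃ B : Ideal (𝓞 K), ∃ s ∈ (normalizedFactors (Ideal.span {(d : 𝓞 K)})).toFinset.powerset,
      B ≠ 0 ∧ Ideal.span {a} = B ^ 2 * ∏ P ∈ s, P := by
  classical
  set I := Ideal.span {a} with hI
  have hI0 : I ≠ 0 := by simpa [hI] using ha
  have hd0 : Ideal.span {(d : 𝓞 K)} ≠ 0 := by simpa using hd
  set f := normalizedFactors I
  refine ⟨∏ P ∈ f.toFinset, P ^ (f.count P / 2), f.toFinset.filter fun P => Odd (f.count P),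
    Finset.mem_powerset.mpr fun P hP => ?_, ?_, ?_⟩
  · rw [Finset.mem_filter, Multiset.mem_toFinset] at hP
    have hPp := prime_of_normalized_factor P hP.1
    haveI := Ideal.isPrime_of_prime hPp
    rw [Multiset.mem_toFinset]
    have hdP : (d : 𝓞 K) ∈ P := by
      by_contra hdP
      refine (Nat.not_even_iff_odd.mpr hP.2) (even_count hunr ha hev hPp.ne_zero hdP ?_ ?_)
      · rw [dvd_iff_normalizedFactors_le_normalizedFactors (pow_ne_zero _ hPp.ne_zero) hI0,
          normalizedFactors_pow, normalizedFactors_irreducible hPp.irreducible, normalize_eq]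
        exact Multiset.le_iff_count.mpr fun Q => by
          by_cases hQ : Q = P <;> simp [hQ, f]
      · intro h
        rw [dvd_iff_normalizedFactors_le_normalizedFactors (pow_ne_zero _ hPp.ne_zero) hI0,
          normalizedFactors_pow, normalizedFactors_irreducible hPp.irreducible, normalize_eq] at h
        have := Multiset.le_iff_count.mp h P
        simp [f] at this
    exact (Ideal.mem_normalizedFactors_iff hd0).mpr
      ⟨inferInstance, (Ideal.span_singleton_le_iff_mem _).mpr hdP⟩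
  · exact Finset.prod_ne_zero_iff.mpr fun P hP => pow_ne_zero _
      (prime_of_normalized_factor P (Multiset.mem_toFinset.mp hP)).ne_zero
  · conv_lhs => rw [← Ideal.prod_normalizedFactors_eq_self hI0, Finset.prod_multiset_count]
    rw [← Finset.prod_pow, Finset.prod_filter, ← Finset.prod_mul_distrib]
    refine Finset.prod_congr rfl fun P _ => ?_
    rw [← pow_mul]
    rcases Nat.even_or_odd (f.count P) with h | h
    · rw [if_neg (Nat.not_odd_iff_even.mpr h), mul_one,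
        Nat.div_mul_cancel (even_iff_two_dvd.mp h)]
    · rw [if_pos h, ← pow_succ, mul_comm, Nat.two_mul_div_two_add_one_of_odd h]

/-- Finitely many square classes in `K` have even valuations outside `d`. -/
theorem exists_finite_square_classes [IsGalois ℚ K] {d : ℕ} (hd : d ≠ 0)
    (hunr : UnramifiedOutside K d) :
    ∃ R : Set QBar, R.Finite ∧ ∀ a ∈ K, a ≠ 0 → EvenOutside d a →
      ∃ r ∈ R, ∃ b ∈ K, a = r * b ^ 2 := by
  classical
  obtain ⟨U, hU⟩ := finite_units_mod_sq K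
  set D := (normalizedFactors (Ideal.span {(d : 𝓞 K)})).toFinset.powerset
  let Good : ClassGroup (𝓞 K) × Finset (Ideal (𝓞 K)) → 𝓞 K → Prop := fun cs a =>
    a ≠ 0 ∧ ∃ B : (Ideal (𝓞 K))⁰, ClassGroup.mk0 B = cs.1 ∧
      Ideal.span {a} = (B : Ideal (𝓞 K)) ^ 2 * ∏ P ∈ cs.2, P
  let rep : ClassGroup (𝓞 K) × Finset (Ideal (𝓞 K)) → 𝓞 K := fun cs =>
    if h : ∃ a, Good cs a then h.choose else 1
  refine ⟨(fun p : 𝓞 K × (𝓞 K)ˣ => ((p.1 : K) : QBar) * (((p.2 : 𝓞 K) : K) : QBar)) ''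
    ((rep '' (Set.univ ×ˢ (D : Set (Finset (Ideal (𝓞 K)))))) ×ˢ (U : Set (𝓞 K)ˣ)),
    ((((Set.finite_univ.prod D.finite_toSet)).image _).prod U.finite_toSet).image _, ?_⟩
  intro a haK ha hev
  obtain ⟨x, y, hy, hxy⟩ := IsFractionRing.div_surjective (𝓞 K) (⟨a, haK⟩ : K)
  have hy0 : (y : 𝓞 K) ≠ 0 := nonZeroDivisors.ne_zero hy
  have hyQ := coe_int_ne_zero hy0
  have hxya : a = ((x : K) : QBar) / ((y : K) : QBar) := (congrArg Subtype.val hxy).symm
  have hx0 : x ≠ 0 := fun h => ha (by rw [hxya, h]; simp)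
  set w : 𝓞 K := x * y
  have hwa : ((w : K) : QBar) = a * ((y : K) : QBar) ^ 2 := by
    rw [hxya]; simp only [w, map_mul, MulMemClass.coe_mul]; field_simp
  have hwev : EvenOutside d ((w : K) : QBar) := fun p A hp hA hpd => by
    obtain ⟨k, hk⟩ := hev p A hp hA hpd
    obtain ⟨l, hl⟩ := exists_int_ordAt hA hp hyQ
      fun σ hσ => hunr p A hp hA hpd σ hσ _ (y : K).2
    refine ⟨k + l, ?_⟩
    rw [hwa, ordAt_mul hA hp ha (pow_ne_zero _ hyQ), hk, ordAt_pow hA hp hyQ, hl]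
    push_cast; ring
  obtain ⟨B, s, hs, hB0, hB⟩ := exists_sq_mul hd hunr (mul_ne_zero hx0 hy0) hwev
  let B' : (Ideal (𝓞 K))⁰ := ⟨B, mem_nonZeroDivisors_of_ne_zero hB0⟩
  set cs := (ClassGroup.mk0 B', s) with hcs
  have hex : ∃ a, Good cs a := ⟨w, mul_ne_zero hx0 hy0, B', rfl, hB⟩
  obtain ⟨hr0, B₀, hB₀c, hB₀⟩ : Good cs (rep cs) := by
    simp only [rep, dif_pos hex]; exact hex.choose_spec
  obtain ⟨u', v', hu', hv', e⟩ := ClassGroup.mk0_eq_mk0_iff.mp hB₀c
  have key : Ideal.span {u' ^ 2 * rep cs} = Ideal.span {v' ^ 2 * w} := by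
    rw [← Ideal.span_singleton_mul_span_singleton, ← Ideal.span_singleton_mul_span_singleton,
      hB₀, hB, ← Ideal.span_singleton_pow, ← Ideal.span_singleton_pow, ← mul_assoc, ← mul_pow, e,
      mul_pow, mul_assoc]
  obtain ⟨u, hu⟩ := Ideal.span_singleton_eq_span_singleton.mp key
  obtain ⟨u₀, hu₀, z, rfl⟩ := hU u
  refine ⟨_, ⟨(rep cs, u₀), ⟨⟨cs, ⟨Set.mem_univ _, hs⟩, rfl⟩, hu₀⟩, rfl⟩,
    ((u' : K) : QBar) * (((z : 𝓞 K) : K) : QBar) / (((v' : K) : QBar) * ((y : K) : QBar)),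
    div_mem (mul_mem (u' : K).2 ((z : 𝓞 K) : K).2) (mul_mem (v' : K).2 (y : K).2), ?_⟩
  have e' := congrArg (fun t : 𝓞 K => ((t : K) : QBar)) hu
  simp only [Units.val_mul, Units.val_pow_eq_pow_val, map_mul, map_pow, MulMemClass.coe_mul,
    SubmonoidClass.coe_pow, hwa] at e'
  have := coe_int_ne_zero hv'
  field_simp
  linear_combination -e'

end Fermat.Agent.MordellWeil
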