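import Fermat.Agent.MordellWeil.Eval

/-!
# The spaces `L(m • pt - D)` and evaluation functionals on them
-/

set_option autoImplicit false
set_option linter.style.haveILetI false
set_option linter.unusedSectionVars false

noncomputable section

open AlgebraicCurve Fermat.Agent.FF

namespace Fermat.Agent.MordellWeil

variable {F : Type*} [Field F] [Algebra Qb F] [IsFunctionField Qb F]

namespace Coords

variable (X : Coords F)

/-- `L(m • pt - D)`. -/
def W (m : ℕ) (D : Divisor Qb F) : Submodule Qb F :=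
  riemannRochSpace (Finsupp.single X.pt (m : ℤ) - D)

/-- Its height. -/
def hW (m : ℕ) (D : Divisor Qb F) : ℝ := X.hSub m (X.W m D)

/-- Its dimension, for `D` effective of degree `n` and `m - n` large. -/
def kdim (_X : Coords F) (m n : ℕ) : ℕ := m - n + 1 - genusFF Qb F

theorem W_le {m : ℕ} {D : Divisor Qb F} (hD : 0 ≤ D) : X.W m D ≤ X.V m :=
  riemannRochSpace_mono (sub_le_self _ hD)

theorem W_zero (m : ℕ) : X.W m 0 = X.V m := by rw [W, sub_zero]; rfl

theorem degree_level_sub (m : ℕ) (D : Divisor Qb F) :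
    Divisor.degree (Finsupp.single X.pt (m : ℤ) - D) = (m : ℤ) - Divisor.degree D := by
  rw [map_sub, degree_single']

theorem finrank_W {m n : ℕ} {D : Divisor Qb F} (hn : Divisor.degree D = n)
    (hm : n + bnd Qb F ≤ m) : Module.finrank Qb (X.W m D) = X.kdim m n := by
  have h := finrank_L (D := Finsupp.single X.pt (m : ℤ) - D) (by rw [degree_level_sub, hn]; omega)
  rw [degree_level_sub, hn] at h
  have := genus_le_bnd (K := Qb) (F := F)
  refine Nat.cast_injective (R := ℤ) (h.trans ?_)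
  simp only [kdim]
  omega

theorem one_le_kdim {m n : ℕ} (hm : n + bnd Qb F ≤ m) : 1 ≤ X.kdim m n := by
  have := genus_le_bnd (K := Qb) (F := F)
  simp only [kdim]; omega

theorem kdim_succ {m n : ℕ} (hm : n + 1 + bnd Qb F ≤ m) : X.kdim m n = X.kdim m (n + 1) + 1 := by
  have := genus_le_bnd (K := Qb) (F := F)
  simp only [kdim]; omega

theorem W_mul {a b n₁ n₂ : ℕ} {D E : Divisor Qb F} (hD : Divisor.degree D = n₁)
    (hE : Divisor.degree E = n₂) (ha : n₁ + bnd Qb F + 1 ≤ a)
    (hb : n₂ + 3 * bnd Qb F + 2 ≤ b) : X.W a D * X.W b E = X.W (a + b) (D + E) := by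
  rw [W, W, W, L_mul_eq (by rw [degree_level_sub, hD]; omega) (by rw [degree_level_sub, hE]; omega)]
  congr 1
  rw [Nat.cast_add, Finsupp.single_add]
  abel

theorem mul_mem_W {a b : ℕ} {D E : Divisor Qb F} {f g : F} (hf : f ∈ X.W a D) (hg : g ∈ X.W b E) :
    f * g ∈ X.W (a + b) (D + E) := by
  have h := mul_mem_L hf hg
  rw [W, Nat.cast_add, Finsupp.single_add]
  convert h using 2
  abel

/-! ### Evaluation -/

open Classical in
/-- A function with the right zero at `pt` to twist evaluation at `Q`. -/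
def tw (Q : Place Qb F) : F := if Q = X.pt then (exists_uniformizer Q).choose else 1

theorem tw_ne_zero (Q : Place Qb F) : X.tw Q ≠ 0 := by
  rw [tw]; split_ifs
  · exact (exists_uniformizer Q).choose_spec.1
  · exact one_ne_zero

theorem ord_tw_pow (Q : Place Qb F) (m : ℕ) :
    Q.ord (X.tw Q ^ m) = Finsupp.single X.pt (m : ℤ) Q := by
  classical
  rw [FF.ord_pow, tw, Finsupp.single_apply]
  by_cases h : Q = X.pt
  · subst h
    rw [if_pos rfl, if_pos rfl, (exists_uniformizer X.pt).choose_spec.2, mul_one]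
  · rw [if_neg h, if_neg (Ne.symm h), Place.ord_one, mul_zero]

theorem mul_tw_mem_iff (Q : Place Qb F) (m : ℕ) {f : F} {r : ℤ} :
    f * X.tw Q ^ m ∈ ordGe Q r ↔ f ∈ ordGe Q (r - Finsupp.single X.pt (m : ℤ) Q) := by
  rcases eq_or_ne f 0 with rfl | hf
  · simp
  rw [mem_ordGe, mem_ordGe, or_iff_right (mul_ne_zero hf (pow_ne_zero m (X.tw_ne_zero Q))),
    or_iff_right hf, Q.ord_mul hf (pow_ne_zero m (X.tw_ne_zero Q)), X.ord_tw_pow]
  omega

theorem mul_tw_mem {Q : Place Qb F} {m : ℕ} {f : F} (hf : f ∈ X.V m) :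
    f * X.tw Q ^ m ∈ ordGe Q 0 := by
  rw [X.mul_tw_mem_iff, zero_sub]
  exact mem_riemannRochSpace'.mp hf Q

/-- Twisted evaluation on `V m`. -/
def evv (Q : Place Qb F) (m : ℕ) (f : F) : Qb := val Q (f * X.tw Q ^ m)

/-- Its coefficient vector. -/
def φ (Q : Place Qb F) (m : ℕ) (i : Fin (X.d m)) : Qb := X.evv Q m (X.e m i)

theorem evv_eq_sum (Q : Place Qb F) {m : ℕ} {f : F} (hf : f ∈ X.V m) :
    X.evv Q m f = ∑ i, X.φ Q m i * X.co m f i := by
  classical
  have key : ∀ s : Finset (Fin (X.d m)), X.evv Q m (∑ i ∈ s, X.co m f i • X.e m i) =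
      ∑ i ∈ s, X.φ Q m i * X.co m f i := by
    intro s
    induction s using Finset.induction_on with
    | empty => simp [evv]
    | insert a s ha ih =>
      rw [Finset.sum_insert ha, Finset.sum_insert ha, ← ih, evv, add_mul, smul_mul_assoc,
        val_add Q (Submodule.smul_mem _ _ (X.mul_tw_mem (X.e_mem m a)))
          (X.mul_tw_mem (sum_mem fun i _ => Submodule.smul_mem _ _ (X.e_mem m i))),
        val_smul Q _ (X.mul_tw_mem (X.e_mem m a)), φ, evv, evv]
      ring
  conv_lhs => rw [← X.sum_co_smul_e hf]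
  exact key _

theorem evv_mul (Q : Place Qb F) {a b : ℕ} {f g : F} (hf : f ∈ X.V a) (hg : g ∈ X.V b) :
    X.evv Q (a + b) (f * g) = X.evv Q a f * X.evv Q b g := by
  rw [evv, evv, evv, ← val_mul Q (X.mul_tw_mem hf) (X.mul_tw_mem hg), pow_add]
  congr 1; ring

theorem evv_eq_zero_iff {Q : Place Qb F} {m : ℕ} {D : Divisor Qb F} (hD : 0 ≤ D) (hQ : D Q = 0)
    {f : F} (hf : f ∈ X.W m D) :
    X.evv Q m f = 0 ↔ f ∈ X.W m (D + Finsupp.single Q 1) := by
  classical
  rw [evv, val_eq_zero_iff Q (X.mul_tw_mem (X.W_le hD hf)), X.mul_tw_mem_iff]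
  constructor
  · intro h
    refine mem_riemannRochSpace'.mpr fun v => ?_
    rw [Finsupp.sub_apply, Finsupp.add_apply]
    by_cases hv : Q = v
    · subst hv
      rw [Finsupp.single_eq_same, hQ]
      exact ordGe_anti Q (by omega) h
    · rw [Finsupp.single_eq_of_ne (Ne.symm hv), add_zero]
      simpa [Finsupp.sub_apply] using mem_riemannRochSpace'.mp hf v
  · intro h
    have := mem_riemannRochSpace'.mp h Q
    rw [Finsupp.sub_apply, Finsupp.add_apply, Finsupp.single_eq_same, hQ] at this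
    exact ordGe_anti Q (by omega) this

/-! ### Contraction -/

/-- Height of the contraction of a subspace by a functional. -/
theorem contr_bounds (m k : ℕ) : ∃ C, ∀ (S T : Submodule Qb F) (w : Fin (k + 1) → F)
    (φ : Fin (X.d m) → Qb), S ≤ X.V m → LinearIndependent Qb w →
    Submodule.span Qb (Set.range w) = S → T ≤ S → Module.finrank Qb T = k →
    (∀ f ∈ T, ∑ i, φ i * X.co m f i = 0) → (∃ f ∈ S, ∑ i, φ i * X.co m f i ≠ 0) →
    contr φ (X.pl m w) ≠ 0 ∧ |habs (contr φ (X.pl m w)) - X.hSub m T| ≤ C := by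
  classical
  let ι₁ := (Fin (k + 1) → Fin (X.d m)) × Fin (k + 1)
  obtain ⟨C₁, hC₁⟩ := habs_linear_le (fun (a : ι₁) (J : Fin k → Fin (X.d m)) =>
    if (fun r => a.1 (a.2.succAbove r)) = J then ((-1 : Qb) ^ (a.2 : ℕ)) else 0)
  rcases isEmpty_or_nonempty (Fin (X.d m)) with hemp | hne
  · refine ⟨0, fun S T w φ _ _ _ _ _ _ hnz => ?_⟩
    obtain ⟨f, _, hf⟩ := hnz
    exact absurd (by simp) hf
  obtain ⟨i₀⟩ := hne
  obtain ⟨C₂, hC₂⟩ := habs_linear_le (fun (J : Fin k → Fin (X.d m)) (a : ι₁) =>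
    if a = (Fin.cons i₀ J, 0) then (1 : Qb) else 0)
  refine ⟨|C₁| + |C₂|, fun S T w φ hS hind hspan hTS hT hTφ hnz => ?_⟩
  obtain ⟨f₀, hf₀S, hf₀⟩ := hnz
  haveI : FiniteDimensional Qb T := X.finiteDimensional_of_le (hTS.trans hS)
  set b := Module.finBasisOfFinrankEq Qb T hT with hb
  set w₁ : Fin k → F := fun j => (b j : F) with hw₁
  set w' : Fin (k + 1) → F := Fin.cons f₀ w₁ with hw'
  have hw₁ind : LinearIndependent Qb w₁ :=
    b.linearIndependent.map' (Submodule.subtype _) (Submodule.ker_subtype _)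
  have hw₁span : Submodule.span Qb (Set.range w₁) = T := by
    rw [show Set.range w₁ = T.subtype '' Set.range b from by rw [← Set.range_comp]; rfl,
      Submodule.span_image, b.span_eq, Submodule.map_top, Submodule.range_subtype]
  have hw'ind : LinearIndependent Qb w' := by
    rw [hw', linearIndependent_finCons]
    exact ⟨hw₁ind, fun h => hf₀ (hTφ _ (hw₁span ▸ h))⟩
  have hwmem : ∀ j, w j ∈ X.V m := fun j => hS (hspan ▸ Submodule.subset_span ⟨j, rfl⟩)
  obtain ⟨c, hc, hcw⟩ := X.exists_pl_proportional (m := m) hwmem hw'ind fun j => by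
    rw [hspan]
    cases j using Fin.cases with
    | zero => simpa [hw'] using hf₀S
    | succ i => simpa [hw'] using hTS (b i).2
  have hval : ∀ a : ι₁, contr φ (X.pl m w') a = (-1) ^ (a.2 : ℕ) *
      (∑ x, φ x * X.co m f₀ x) * X.pl m w₁ (fun r => a.1 (a.2.succAbove r)) := fun a =>
    contr_plucker_adapted φ (fun j => X.co m (w' j))
      (fun i => by simpa [hw', hw₁] using hTφ _ (b i).2) a.1 a.2
  have hlin : contr φ (X.pl m w') = c • contr φ (X.pl m w) := by
    funext a
    simp only [contr, uvec, hcw, Pi.smul_apply, smul_eq_mul, Finset.mul_sum]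
    exact Finset.sum_congr rfl fun x _ => by ring
  have hne' : contr φ (X.pl m w') ≠ 0 := by
    obtain ⟨J, hJ⟩ := Function.ne_iff.mp (X.pl_ne_zero
      (fun j => (hTS.trans hS) (hw₁span ▸ Submodule.subset_span ⟨j, rfl⟩)) hw₁ind)
    intro h0
    have h := congrFun h0 ((Fin.cons i₀ J : Fin (k + 1) → Fin (X.d m)), 0)
    rw [hval] at h
    simp only [Fin.succAbove_zero, Fin.cons_succ, Fin.val_zero, pow_zero, one_mul, Pi.zero_apply,
      mul_eq_zero] at h
    exact h.elim hf₀ hJ
  refine ⟨fun h0 => hne' (by rw [hlin, h0, smul_zero]), ?_⟩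
  rw [X.hSub_eq w₁ (hTS.trans hS) hw₁ind hw₁span, ← habs_smul (contr φ (X.pl m w)) hc, ← hlin]
  set s := ∑ x, φ x * X.co m f₀ x with hs
  have e1 : contr φ (X.pl m w') = s • fun a : ι₁ => ∑ J : Fin k → Fin (X.d m),
      (if (fun r => a.1 (a.2.succAbove r)) = J then ((-1 : Qb) ^ (a.2 : ℕ)) else 0) *
        X.pl m w₁ J := by
    funext a
    rw [hval, Pi.smul_apply, smul_eq_mul]
    simp only [ite_mul, zero_mul, Finset.sum_ite_eq, Finset.mem_univ, if_true]
    ring
  have e2 : s • X.pl m w₁ = fun J => ∑ a : ι₁,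
      (if a = (Fin.cons i₀ J, 0) then (1 : Qb) else 0) * contr φ (X.pl m w') a := by
    funext J
    rw [Finset.sum_eq_single ((Fin.cons i₀ J : Fin (k + 1) → Fin (X.d m)), (0 : Fin (k + 1)))
      (fun a _ ha => by simp [ha]) (fun h => absurd (Finset.mem_univ _) h)]
    simp [hval, hs]
  have h1 : habs (contr φ (X.pl m w')) ≤ habs (X.pl m w₁) + C₁ := by
    rw [e1, habs_smul _ hf₀]; exact hC₁ _
  have h2 : habs (X.pl m w₁) ≤ habs (contr φ (X.pl m w')) + C₂ := by
    rw [← habs_smul (X.pl m w₁) hf₀, e2]; exact hC₂ _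
  rw [abs_le]
  constructor <;> linarith [le_abs_self C₁, le_abs_self C₂, abs_nonneg C₁, abs_nonneg C₂]

end Coords

end Fermat.Agent.MordellWeil
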